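import Mathlib
import Fermat.Agent.S56.FL.Local

set_option autoImplicit false

/-!
# LOC-p-FL, LF basics (helper15), part 1: isometry of automorphisms, API for `depth`,
discreteness of the value group and existence of a uniformizer.

Setting of `Fermat/Agent/S56/FL/Local.lean`: `K̄ = PadicAlgCl p`, `L` an intermediate field of
`K̄/ℚ_p`.  All norms are taken in `K̄`.
-/

noncomputable section

namespace Fermat.Agent.S56.FL.H15

open scoped NNReal
open Fermat.Agent.S56.FL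

variable (p : ℕ) [Fact p.Prime]

/-- The norm of `K̄` only depends on the minimal polynomial over `ℚ_p`. -/
theorem norm_eq_of_minpoly_eq {x y : PadicAlgCl p}
    (h : minpoly ℚ_[p] x = minpoly ℚ_[p] y) : ‖x‖ = ‖y‖ := by
  rw [← PadicAlgCl.spectralNorm_eq, ← PadicAlgCl.spectralNorm_eq]
  simp only [spectralNorm, h]

variable {p}

/-- A `ℚ_p`-algebra homomorphism from an intermediate field to `K̄` preserves the norm. -/
theorem norm_algHom {L : IntermediateField ℚ_[p] (PadicAlgCl p)}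
    (f : L →ₐ[ℚ_[p]] PadicAlgCl p) (a : L) : ‖f a‖ = ‖(a : PadicAlgCl p)‖ := by
  apply norm_eq_of_minpoly_eq
  rw [minpoly.algHom_eq f f.injective a]
  exact (minpoly.algebraMap_eq (algebraMap L (PadicAlgCl p)).injective a).symm

/-- Automorphisms of `L/ℚ_p` are isometries. -/
theorem norm_algEquiv {L : IntermediateField ℚ_[p] (PadicAlgCl p)}
    (σ : L ≃ₐ[ℚ_[p]] L) (a : L) : ‖((σ a : L) : PadicAlgCl p)‖ = ‖(a : PadicAlgCl p)‖ :=
  norm_algHom (L.val.comp (σ : L →ₐ[ℚ_[p]] L)) a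

theorem norm_algEquiv_sub {L : IntermediateField ℚ_[p] (PadicAlgCl p)}
    (σ : L ≃ₐ[ℚ_[p]] L) (a b : L) :
    ‖((σ a : L) : PadicAlgCl p) - ((σ b : L) : PadicAlgCl p)‖
      = ‖(a : PadicAlgCl p) - (b : PadicAlgCl p)‖ := by
  have := norm_algEquiv σ (a - b)
  simpa using this

/-! ### API for `depth` -/

theorem norm_sub_le_one {L : IntermediateField ℚ_[p] (PadicAlgCl p)}
    (σ : L ≃ₐ[ℚ_[p]] L) {a : L} (ha : ‖(a : PadicAlgCl p)‖ ≤ 1) :
    ‖((σ a : L) : PadicAlgCl p) - (a : PadicAlgCl p)‖ ≤ 1 := by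
  rw [sub_eq_add_neg]
  refine (IsUltrametricDist.norm_add_le_max _ _).trans (max_le ?_ ?_)
  · rw [norm_algEquiv]; exact ha
  · rw [norm_neg]; exact ha

theorem depth_bddAbove (L : IntermediateField ℚ_[p] (PadicAlgCl p)) (σ : L ≃ₐ[ℚ_[p]] L) :
    BddAbove (Set.range fun a : {a : L // ‖(a : PadicAlgCl p)‖ ≤ 1} =>
      ‖((σ a.1 : L) : PadicAlgCl p) - ((a.1 : L) : PadicAlgCl p)‖) := by
  refine ⟨1, ?_⟩
  rintro _ ⟨a, rfl⟩
  exact norm_sub_le_one σ a.2

theorem norm_sub_le_depth {L : IntermediateField ℚ_[p] (PadicAlgCl p)}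
    (σ : L ≃ₐ[ℚ_[p]] L) {a : L} (ha : ‖(a : PadicAlgCl p)‖ ≤ 1) :
    ‖((σ a : L) : PadicAlgCl p) - (a : PadicAlgCl p)‖ ≤ depth p L σ :=
  le_ciSup (depth_bddAbove L σ) (⟨a, ha⟩ : {a : L // ‖(a : PadicAlgCl p)‖ ≤ 1})

theorem depth_le {L : IntermediateField ℚ_[p] (PadicAlgCl p)}
    (σ : L ≃ₐ[ℚ_[p]] L) {C : ℝ}
    (hC : ∀ a : L, ‖(a : PadicAlgCl p)‖ ≤ 1 →
      ‖((σ a : L) : PadicAlgCl p) - (a : PadicAlgCl p)‖ ≤ C) :
    depth p L σ ≤ C := by
  have : Nonempty {a : L // ‖(a : PadicAlgCl p)‖ ≤ 1} := ⟨⟨0, by simp⟩⟩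
  exact ciSup_le fun a => hC a.1 a.2

theorem depth_nonneg (L : IntermediateField ℚ_[p] (PadicAlgCl p)) (σ : L ≃ₐ[ℚ_[p]] L) :
    0 ≤ depth p L σ :=
  (norm_nonneg _).trans (norm_sub_le_depth σ (a := 0) (by simp))

theorem depth_le_one (L : IntermediateField ℚ_[p] (PadicAlgCl p)) (σ : L ≃ₐ[ℚ_[p]] L) :
    depth p L σ ≤ 1 :=
  depth_le σ fun _ ha => norm_sub_le_one σ ha

theorem depth_one (L : IntermediateField ℚ_[p] (PadicAlgCl p)) :
    depth p L (1 : L ≃ₐ[ℚ_[p]] L) = 0 := by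
  refine le_antisymm (depth_le _ fun a _ => ?_) (depth_nonneg L 1)
  simp

/-- `depth σ = 0` only for `σ = 1`. -/
theorem eq_one_of_depth_eq_zero {L : IntermediateField ℚ_[p] (PadicAlgCl p)}
    {σ : L ≃ₐ[ℚ_[p]] L} (h : depth p L σ = 0) : σ = 1 := by
  have key : ∀ a : L, ‖(a : PadicAlgCl p)‖ ≤ 1 → σ a = a := by
    intro a ha
    have h1 := norm_sub_le_depth σ ha
    rw [h] at h1
    have h2 : ((σ a : L) : PadicAlgCl p) - (a : PadicAlgCl p) = 0 :=
      norm_le_zero_iff.mp h1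
    exact Subtype.ext (sub_eq_zero.mp h2)
  ext a
  by_cases ha : ‖(a : PadicAlgCl p)‖ ≤ 1
  · simpa using congrArg (fun z : L => (z : PadicAlgCl p)) (key a ha)
  · have ha0 : a ≠ 0 := by
      rintro rfl; simp at ha
    have hinv : ‖((a⁻¹ : L) : PadicAlgCl p)‖ ≤ 1 := by
      push_cast
      rw [norm_inv]
      exact inv_le_one_of_one_le₀ (le_of_lt (not_le.mp ha))
    have h3 := key a⁻¹ hinv
    rw [map_inv₀] at h3
    have h4 : σ a = a := inv_injective h3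
    simpa using congrArg (fun z : L => (z : PadicAlgCl p)) h4

theorem depth_mul_le (L : IntermediateField ℚ_[p] (PadicAlgCl p)) (σ τ : L ≃ₐ[ℚ_[p]] L) :
    depth p L (σ * τ) ≤ max (depth p L σ) (depth p L τ) := by
  refine depth_le _ fun a ha => ?_
  have h1 : (((σ * τ) a : L) : PadicAlgCl p) - (a : PadicAlgCl p)
      = (((σ (τ a) : L) : PadicAlgCl p) - ((τ a : L) : PadicAlgCl p))
        + (((τ a : L) : PadicAlgCl p) - (a : PadicAlgCl p)) := by
    simp [AlgEquiv.mul_apply]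
  rw [h1]
  refine (IsUltrametricDist.norm_add_le_max _ _).trans (max_le_max ?_ ?_)
  · exact norm_sub_le_depth σ (by rw [norm_algEquiv]; exact ha)
  · exact norm_sub_le_depth τ ha

theorem depth_inv (L : IntermediateField ℚ_[p] (PadicAlgCl p)) (σ : L ≃ₐ[ℚ_[p]] L) :
    depth p L σ⁻¹ = depth p L σ := by
  have key : ∀ τ : L ≃ₐ[ℚ_[p]] L, depth p L τ⁻¹ ≤ depth p L τ := by
    intro τ
    refine depth_le _ fun a ha => ?_
    have h0 : τ (τ⁻¹ a) = a := by
      rw [← AlgEquiv.mul_apply, mul_inv_cancel, AlgEquiv.one_apply]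
    have h1 : ‖((τ⁻¹ a : L) : PadicAlgCl p) - (a : PadicAlgCl p)‖
        = ‖((τ (τ⁻¹ a) : L) : PadicAlgCl p) - ((τ⁻¹ a : L) : PadicAlgCl p)‖ := by
      rw [h0, norm_sub_rev]
    rw [h1]
    exact norm_sub_le_depth τ (by rw [norm_algEquiv]; exact ha)
  refine le_antisymm (key σ) ?_
  have := key σ⁻¹
  rwa [inv_inv] at this

end Fermat.Agent.S56.FL.H15

end
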