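import Mathlib
import Fermat.Agent.S56.FL.LF.H15_Depth

set_option autoImplicit false

/-!
# LOC-p-FL, LF basics (helper15), part 2: discreteness of the value group, uniformizer,
finitely many residue classes.
-/

noncomputable section

namespace Fermat.Agent.S56.FL.H15

open scoped NNReal
open Fermat.Agent.S56.FL Module

variable {p : ℕ} [Fact p.Prime]

theorem one_lt_p_real : (1 : ℝ) < (p : ℝ) := by
  exact_mod_cast (Fact.out : p.Prime).one_lt

theorem p_pos_real : (0 : ℝ) < (p : ℝ) := by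
  exact_mod_cast (Fact.out : p.Prime).pos

theorem norm_p_algCl : ‖(p : PadicAlgCl p)‖ = (p : ℝ)⁻¹ := by
  have h : (p : PadicAlgCl p) = algebraMap ℚ_[p] (PadicAlgCl p) (p : ℚ_[p]) := by simp
  rw [h, PadicAlgCl.norm_extends, Padic.norm_p]

theorem norm_natCast_le_one (n : ℕ) : ‖(n : PadicAlgCl p)‖ ≤ 1 := by
  have h : (n : PadicAlgCl p) = algebraMap ℚ_[p] (PadicAlgCl p) (n : ℚ_[p]) := by simp
  rw [h, PadicAlgCl.norm_extends]
  have := Padic.norm_int_le_one (p := p) (n : ℤ)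
  simpa using this

theorem norm_intCast_le_one (n : ℤ) : ‖(n : PadicAlgCl p)‖ ≤ 1 := by
  have h : (n : PadicAlgCl p) = algebraMap ℚ_[p] (PadicAlgCl p) (n : ℚ_[p]) := by simp
  rw [h, PadicAlgCl.norm_extends]
  exact Padic.norm_int_le_one n

/-- The `d`-th power of the norm of `y ≠ 0` is a power of `p`, `d` the degree of `y`. -/
theorem norm_pow_natDegree (y : PadicAlgCl p) (hy : y ≠ 0) :
    ∃ k : ℤ, ‖y‖ ^ (minpoly ℚ_[p] y).natDegree = (p : ℝ) ^ k := by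
  have hint : IsIntegral ℚ_[p] y := (Algebra.IsAlgebraic.isAlgebraic y).isIntegral
  have hd : (minpoly ℚ_[p] y).natDegree ≠ 0 := (minpoly.natDegree_pos hint).ne'
  have h0 : (minpoly ℚ_[p] y).coeff 0 ≠ 0 := minpoly.coeff_zero_ne_zero hint hy
  refine ⟨-((minpoly ℚ_[p] y).coeff 0).valuation, ?_⟩
  rw [← Padic.norm_eq_zpow_neg_valuation h0, ← PadicAlgCl.spectralNorm_eq,
    spectralNorm.spectralNorm_eq_norm_coeff_zero_rpow, one_div]
  exact Real.rpow_inv_natCast_pow (norm_nonneg _) hd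

variable (L : IntermediateField ℚ_[p] (PadicAlgCl p))

/-- Discreteness: the `n`-th power of the norm of `y ∈ L`, `y ≠ 0`, `n = [L : ℚ_p]`, is a power
of `p`. -/
theorem norm_pow_finrank (y : L) (hy : y ≠ 0) :
    ∃ k : ℤ, ‖(y : PadicAlgCl p)‖ ^ (finrank ℚ_[p] L) = (p : ℝ) ^ k := by
  have hy' : (y : PadicAlgCl p) ≠ 0 := by
    intro h; exact hy (Subtype.ext h)
  obtain ⟨k, hk⟩ := norm_pow_natDegree (y : PadicAlgCl p) hy'
  have hmin : minpoly ℚ_[p] (y : PadicAlgCl p) = minpoly ℚ_[p] y :=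
    (minpoly.algebraMap_eq (algebraMap L (PadicAlgCl p)).injective y)
  have hint : IsIntegral ℚ_[p] y := (Algebra.IsAlgebraic.isAlgebraic y).isIntegral
  obtain ⟨m, hm⟩ := minpoly.degree_dvd hint
  refine ⟨k * m, ?_⟩
  rw [hm, pow_mul, ← hmin, hk, zpow_mul, zpow_natCast]

variable [FiniteDimensional ℚ_[p] L]

/-- There is a uniformizer. -/
theorem exists_uniformizer :
    ∃ π : L, 0 < ‖(π : PadicAlgCl p)‖ ∧ ‖(π : PadicAlgCl p)‖ < 1 ∧
      ∀ a : L, ‖(a : PadicAlgCl p)‖ < 1 → ‖(a : PadicAlgCl p)‖ ≤ ‖(π : PadicAlgCl p)‖ := by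
  classical
  set n := finrank ℚ_[p] L with hn
  have hnpos : 0 < n := finrank_pos
  -- the set of exponents of elements of norm < 1
  let S : Set ℤ := {k | ∃ y : L, y ≠ 0 ∧ ‖(y : PadicAlgCl p)‖ < 1 ∧
    ‖(y : PadicAlgCl p)‖ ^ n = (p : ℝ) ^ k}
  have hp1 : (1 : ℝ) < p := one_lt_p_real
  have hSbdd : ∀ k ∈ S, k ≤ -1 := by
    rintro k ⟨y, -, hy1, hyk⟩
    by_contra hk
    have hk0 : 0 ≤ k := by omega
    have h1 : (1 : ℝ) ≤ (p : ℝ) ^ k := one_le_zpow₀ hp1.le hk0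
    have h2 : ‖(y : PadicAlgCl p)‖ ^ n < 1 := pow_lt_one₀ (norm_nonneg _) hy1 hnpos.ne'
    rw [hyk] at h2
    exact absurd h1 (not_le.mpr h2)
  have hSne : ∃ k, k ∈ S := by
    have hpL : (p : L) ≠ 0 := by exact_mod_cast (Fact.out : p.Prime).ne_zero
    obtain ⟨k, hk⟩ := norm_pow_finrank L (p : L) hpL
    refine ⟨k, (p : L), hpL, ?_, hk⟩
    push_cast
    rw [norm_p_algCl]
    exact inv_lt_one_of_one_lt₀ hp1
  obtain ⟨k₀, hk₀S, hk₀max⟩ := Int.exists_greatest_of_bdd ⟨-1, hSbdd⟩ hSne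
  obtain ⟨π, hπ0, hπ1, hπk⟩ := hk₀S
  have hπ' : (π : PadicAlgCl p) ≠ 0 := fun h => hπ0 (Subtype.ext h)
  refine ⟨π, norm_pos_iff.mpr hπ', hπ1, ?_⟩
  intro a ha
  by_cases ha0 : a = 0
  · subst ha0; simp
  obtain ⟨k, hk⟩ := norm_pow_finrank L a ha0
  have hkS : k ∈ S := ⟨a, ha0, ha, hk⟩
  have hle : k ≤ k₀ := hk₀max k hkS
  have hpow : ‖(a : PadicAlgCl p)‖ ^ n ≤ ‖(π : PadicAlgCl p)‖ ^ n := by
    rw [hk, hπk]
    exact zpow_le_zpow_right₀ hp1.le hle
  exact le_of_pow_le_pow_left₀ hnpos.ne' (norm_nonneg _) hpow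

/-- Finitely many residue classes: a finite set of integers of `L` meeting every residue class
modulo the maximal ideal. -/
theorem exists_finite_residue_reps :
    ∃ T : Finset L, (∀ t ∈ T, ‖(t : PadicAlgCl p)‖ ≤ 1) ∧
      ∀ a : L, ‖(a : PadicAlgCl p)‖ ≤ 1 → ∃ t ∈ T, ‖(a : PadicAlgCl p) - (t : PadicAlgCl p)‖ < 1 := by
  classical
  have : ProperSpace L := FiniteDimensional.proper ℚ_[p] L
  have hcomp : IsCompact (Metric.closedBall (0 : L) 1) := isCompact_closedBall 0 1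
  obtain ⟨t, hts, htfin, hcov⟩ := finite_cover_balls_of_compact hcomp (e := 1) one_pos
  refine ⟨htfin.toFinset, ?_, ?_⟩
  · intro x hx
    have hx' : x ∈ Metric.closedBall (0 : L) 1 := hts (htfin.mem_toFinset.mp hx)
    have : ‖x‖ ≤ 1 := by simpa using hx'
    exact this
  · intro a ha
    have ha' : a ∈ Metric.closedBall (0 : L) 1 := by
      simp only [Metric.mem_closedBall, dist_zero_right]
      exact ha
    have := hcov ha'
    simp only [Set.mem_iUnion, Metric.mem_ball, exists_prop] at this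
    obtain ⟨x, hxt, hx⟩ := this
    refine ⟨x, htfin.mem_toFinset.mpr hxt, ?_⟩
    rw [dist_eq_norm] at hx
    exact hx

end Fermat.Agent.S56.FL.H15

end
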