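import Mathlib
import Fermat.Agent.S56.FL.LF.H15_Unif

set_option autoImplicit false
set_option linter.style.haveILetI false

/-!
# LOC-p-FL, LF basics (helper15), part 3: the residue field of a finite extension `L/ℚ_p` is a
finite field; a multiplicative generator; existence of `x` with
`depth σ = ‖σ x - x‖` for all `σ` (a generator of `𝒪_L` over `ℤ_p`, Serre III §6 Prop. 12).
-/

noncomputable section

namespace Fermat.Agent.S56.FL.H15

open scoped NNReal
open Fermat.Agent.S56.FL Module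

variable {p : ℕ} [Fact p.Prime]

variable (L : IntermediateField ℚ_[p] (PadicAlgCl p))

/-- The ring of integers of `L`, as a subring of `L`. -/
def OL : Subring L where
  carrier := {a | ‖(a : PadicAlgCl p)‖ ≤ 1}
  mul_mem' {a b} ha hb := by
    change ‖((a * b : L) : PadicAlgCl p)‖ ≤ 1
    push_cast
    rw [norm_mul]
    exact mul_le_one₀ ha (norm_nonneg _) hb
  one_mem' := by
    change ‖((1 : L) : PadicAlgCl p)‖ ≤ 1
    simp
  add_mem' {a b} ha hb := by
    change ‖((a + b : L) : PadicAlgCl p)‖ ≤ 1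
    push_cast
    exact (IsUltrametricDist.norm_add_le_max _ _).trans (max_le ha hb)
  zero_mem' := by
    change ‖((0 : L) : PadicAlgCl p)‖ ≤ 1
    simp
  neg_mem' {a} ha := by
    change ‖((-a : L) : PadicAlgCl p)‖ ≤ 1
    push_cast
    rw [norm_neg]
    exact ha

theorem mem_OL {a : L} : a ∈ OL L ↔ ‖(a : PadicAlgCl p)‖ ≤ 1 := Iff.rfl

/-- The maximal ideal of `𝒪_L`. -/
def mL : Ideal (OL L) where
  carrier := {a | ‖((a : L) : PadicAlgCl p)‖ < 1}
  add_mem' {a b} ha hb := by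
    change ‖(((a + b : OL L) : L) : PadicAlgCl p)‖ < 1
    push_cast
    exact (IsUltrametricDist.norm_add_le_max _ _).trans_lt (max_lt ha hb)
  zero_mem' := by
    change ‖(((0 : OL L) : L) : PadicAlgCl p)‖ < 1
    simp
  smul_mem' r a ha := by
    change ‖(((r * a : OL L) : L) : PadicAlgCl p)‖ < 1
    push_cast
    rw [norm_mul]
    calc ‖((r : L) : PadicAlgCl p)‖ * ‖((a : L) : PadicAlgCl p)‖
        ≤ 1 * ‖((a : L) : PadicAlgCl p)‖ :=
          mul_le_mul_of_nonneg_right r.2 (norm_nonneg _)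
      _ = ‖((a : L) : PadicAlgCl p)‖ := one_mul _
      _ < 1 := ha

theorem mem_mL {a : OL L} : a ∈ mL L ↔ ‖((a : L) : PadicAlgCl p)‖ < 1 := Iff.rfl

theorem mL_isMaximal : (mL L).IsMaximal := by
  rw [Ideal.isMaximal_iff]
  refine ⟨?_, fun J x _ hx hxJ => ?_⟩
  · intro h
    have : ‖(((1 : OL L) : L) : PadicAlgCl p)‖ < 1 := h
    simp at this
  · have hx1 : ‖((x : L) : PadicAlgCl p)‖ = 1 :=
      le_antisymm x.2 (not_lt.mp hx)
    have hx0 : (x : L) ≠ 0 := by
      intro h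
      rw [h] at hx1
      simp at hx1
    have hinv : ((x : L)⁻¹) ∈ OL L := by
      change ‖(((x : L)⁻¹ : L) : PadicAlgCl p)‖ ≤ 1
      push_cast
      rw [norm_inv, hx1, inv_one]
    have h1 : (⟨(x : L)⁻¹, hinv⟩ : OL L) * x = 1 := by
      apply Subtype.ext
      push_cast
      exact inv_mul_cancel₀ hx0
    rw [← h1]
    exact J.mul_mem_left _ hxJ

variable [FiniteDimensional ℚ_[p] L]

theorem finite_residue : Finite (OL L ⧸ mL L) := by
  classical
  obtain ⟨T, hT1, hT2⟩ := exists_finite_residue_reps L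
  let f : {t // t ∈ T} → OL L ⧸ mL L :=
    fun t => Ideal.Quotient.mk (mL L) ⟨t.1, hT1 t.1 t.2⟩
  apply Finite.of_surjective f
  intro y
  obtain ⟨a, rfl⟩ := Ideal.Quotient.mk_surjective y
  obtain ⟨t, ht, hat⟩ := hT2 a.1 a.2
  refine ⟨⟨t, ht⟩, ?_⟩
  change Ideal.Quotient.mk (mL L) ⟨t, hT1 t ht⟩ = Ideal.Quotient.mk (mL L) a
  rw [Ideal.Quotient.eq, mem_mL]
  push_cast
  rw [norm_sub_rev]
  exact hat

/-- A multiplicative generator of the residue field, and the cardinality `q` of the residue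
field. -/
theorem exists_residue_generator :
    ∃ (ζ : L) (q : ℕ), ‖(ζ : PadicAlgCl p)‖ ≤ 1 ∧ 0 < q ∧ ‖(q : PadicAlgCl p)‖ < 1 ∧
      (∀ a : L, ‖(a : PadicAlgCl p)‖ ≤ 1 →
        ‖(a : PadicAlgCl p) ^ q - (a : PadicAlgCl p)‖ < 1) ∧
      (∀ a : L, ‖(a : PadicAlgCl p)‖ = 1 →
        ∃ m : ℕ, ‖(a : PadicAlgCl p) - (ζ : PadicAlgCl p) ^ m‖ < 1) := by
  classical
  haveI hmax : (mL L).IsMaximal := mL_isMaximal L
  letI : Field (OL L ⧸ mL L) := Ideal.Quotient.field (mL L)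
  haveI : Finite (OL L ⧸ mL L) := finite_residue L
  letI : Fintype (OL L ⧸ mL L) := Fintype.ofFinite _
  obtain ⟨g, hg⟩ := IsCyclic.exists_generator (α := (OL L ⧸ mL L)ˣ)
  obtain ⟨ζ, hζ⟩ := Ideal.Quotient.mk_surjective (g : OL L ⧸ mL L)
  refine ⟨(ζ : L), Fintype.card (OL L ⧸ mL L), ζ.2, Fintype.card_pos, ?_, ?_, ?_⟩
  · have h0 : ((Fintype.card (OL L ⧸ mL L) : ℕ) : OL L ⧸ mL L) = 0 :=
      Nat.cast_card_eq_zero _
    have h1 : Ideal.Quotient.mk (mL L) ((Fintype.card (OL L ⧸ mL L) : ℕ) : OL L) = 0 := by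
      rw [map_natCast]; exact h0
    rw [Ideal.Quotient.eq_zero_iff_mem, mem_mL] at h1
    simpa using h1
  · intro a ha
    have h0 : (Ideal.Quotient.mk (mL L) ⟨a, ha⟩) ^ Fintype.card (OL L ⧸ mL L)
        = Ideal.Quotient.mk (mL L) ⟨a, ha⟩ := FiniteField.pow_card _
    rw [← map_pow, Ideal.Quotient.eq, mem_mL] at h0
    simpa using h0
  · intro a ha
    have hne : Ideal.Quotient.mk (mL L) ⟨a, ha.le⟩ ≠ 0 := by
      intro h
      rw [Ideal.Quotient.eq_zero_iff_mem, mem_mL] at h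
      simp only at h
      rw [ha] at h
      exact lt_irrefl _ h
    have hu := hg (Units.mk0 _ hne)
    rw [← mem_powers_iff_mem_zpowers, Submonoid.mem_powers_iff] at hu
    obtain ⟨m, hm⟩ := hu
    refine ⟨m, ?_⟩
    have hm' : (g : OL L ⧸ mL L) ^ m = Ideal.Quotient.mk (mL L) ⟨a, ha.le⟩ := by
      have := congrArg (fun u : (OL L ⧸ mL L)ˣ => (u : OL L ⧸ mL L)) hm
      simpa using this
    rw [← hζ, ← map_pow, Ideal.Quotient.eq, mem_mL] at hm'
    rw [norm_sub_rev]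
    simpa using hm'

end Fermat.Agent.S56.FL.H15

end
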