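import Mathlib
import Fermat.Agent.S56.FL.LF.H15_Residue

set_option autoImplicit false

/-!
# LOC-p-FL, LF basics (helper15), part 4: a good generator `x` of `𝒪_L`
(Serre, Local Fields III §6 Prop. 12) and the formula `depth σ = ‖σ x - x‖`.

`IsGoodGen L x π q`: `π` is a uniformizer of `L`, `x` is an integer of `L` such that
`x^q - x` is a uniformizer and every integer of `L` is congruent modulo `π` to `0` or to a power
of `x`.  Then (finite successive approximation, no completeness needed)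
`‖σ a - a‖ ≤ ‖σ x - x‖` for every integer `a` and every automorphism `σ`.
-/

noncomputable section

namespace Fermat.Agent.S56.FL.H15

open scoped NNReal
open Fermat.Agent.S56.FL Module Polynomial

variable {p : ℕ} [Fact p.Prime]

variable (L : IntermediateField ℚ_[p] (PadicAlgCl p))

/-- `x` is a good generator of the integers of `L`, with uniformizer `π` and residue
cardinality `q`. -/
def IsGoodGen (x π : L) (q : ℕ) : Prop :=
  ‖x‖ ≤ 1 ∧ 0 < ‖π‖ ∧ ‖π‖ < 1 ∧ (∀ a : L, ‖a‖ < 1 → ‖a‖ ≤ ‖π‖) ∧ ‖x ^ q - x‖ = ‖π‖ ∧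
    ∀ a : L, ‖a‖ ≤ 1 → ‖a‖ ≤ ‖π‖ ∨ ∃ m : ℕ, ‖a - x ^ m‖ ≤ ‖π‖

variable {L}

theorem norm_pow_sub_pow_le {y z : L} (hy : ‖y‖ ≤ 1) (hz : ‖z‖ ≤ 1) (m : ℕ) :
    ‖y ^ m - z ^ m‖ ≤ ‖y - z‖ := by
  induction m with
  | zero => simp
  | succ m ih =>
    have h : y ^ (m + 1) - z ^ (m + 1) = y * (y ^ m - z ^ m) + (y - z) * z ^ m := by ring
    rw [h]
    refine (IsUltrametricDist.norm_add_le_max _ _).trans (max_le ?_ ?_)
    · rw [norm_mul]
      calc ‖y‖ * ‖y ^ m - z ^ m‖ ≤ 1 * ‖y - z‖ :=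
            mul_le_mul hy ih (norm_nonneg _) zero_le_one
        _ = ‖y - z‖ := one_mul _
    · rw [norm_mul, norm_pow]
      calc ‖y - z‖ * ‖z‖ ^ m ≤ ‖y - z‖ * 1 :=
            mul_le_mul_of_nonneg_left (pow_le_one₀ (norm_nonneg _) hz) (norm_nonneg _)
        _ = ‖y - z‖ := mul_one _

theorem norm_add3_eq {A B C : L} {r : ℝ} (hA : ‖A‖ < r) (hB : ‖B‖ = r) (hC : ‖C‖ < r) :
    ‖A + B + C‖ = r := by
  have h1 : ‖A + B‖ = r := by
    rw [IsUltrametricDist.norm_add_eq_max_of_norm_ne_norm (by rw [hB]; exact hA.ne), hB]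
    exact max_eq_right hA.le
  rw [IsUltrametricDist.norm_add_eq_max_of_norm_ne_norm (by rw [h1]; exact hC.ne'), h1]
  exact max_eq_left hC.le

variable (L) [FiniteDimensional ℚ_[p] L]

/-- Existence of a good generator. -/
theorem exists_goodGen : ∃ (x π : L) (q : ℕ), IsGoodGen L x π q := by
  obtain ⟨π, hπ0, hπ1, hπmax⟩ := exists_uniformizer L
  obtain ⟨ζ, q, hζ, hq0, hq1, hpowq, hgen⟩ := exists_residue_generator L
  have hπ0' : 0 < ‖π‖ := hπ0
  have hπ1' : ‖π‖ < 1 := hπ1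
  have hπmax' : ∀ a : L, ‖a‖ < 1 → ‖a‖ ≤ ‖π‖ := hπmax
  have hζ' : ‖ζ‖ ≤ 1 := hζ
  have hq1' : ‖(q : L)‖ < 1 := by
    have : ‖((q : L) : PadicAlgCl p)‖ < 1 := by push_cast; exact hq1
    exact this
  have hpowq' : ∀ a : L, ‖a‖ ≤ 1 → ‖a ^ q - a‖ < 1 := by
    intro a ha
    have := hpowq a ha
    have h2 : ‖((a ^ q - a : L) : PadicAlgCl p)‖ < 1 := by push_cast; exact this
    exact h2
  have hgen' : ∀ a : L, ‖a‖ = 1 → ∃ m : ℕ, ‖a - ζ ^ m‖ < 1 := by
    intro a ha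
    obtain ⟨m, hm⟩ := hgen a ha
    refine ⟨m, ?_⟩
    have h2 : ‖((a - ζ ^ m : L) : PadicAlgCl p)‖ < 1 := by push_cast; exact hm
    exact h2
  -- the residue classes of powers of any `x ≡ ζ`
  have hres : ∀ x : L, ‖x‖ ≤ 1 → ‖x - ζ‖ < 1 →
      ∀ a : L, ‖a‖ ≤ 1 → ‖a‖ ≤ ‖π‖ ∨ ∃ m : ℕ, ‖a - x ^ m‖ ≤ ‖π‖ := by
    intro x hx hxζ a ha
    rcases lt_or_eq_of_le ha with h | h
    · exact Or.inl (hπmax' a h)
    · obtain ⟨m, hm⟩ := hgen' a h
      refine Or.inr ⟨m, hπmax' _ ?_⟩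
      have h1 : a - x ^ m = (a - ζ ^ m) + (ζ ^ m - x ^ m) := by ring
      rw [h1]
      refine (IsUltrametricDist.norm_add_le_max _ _).trans_lt (max_lt hm ?_)
      refine (norm_pow_sub_pow_le hζ' hx m).trans_lt ?_
      rwa [norm_sub_rev]
  by_cases hcase : ‖ζ ^ q - ζ‖ = ‖π‖
  · exact ⟨ζ, π, q, hζ', hπ0', hπ1', hπmax', hcase, hres ζ hζ' (by simp)⟩
  · have hlt : ‖ζ ^ q - ζ‖ < ‖π‖ := lt_of_le_of_ne (hπmax' _ (hpowq' ζ hζ')) hcase
    have hx : ‖ζ + π‖ ≤ 1 :=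
      (IsUltrametricDist.norm_add_le_max _ _).trans (max_le hζ' hπ1'.le)
    refine ⟨ζ + π, π, q, hx, hπ0', hπ1', hπmax', ?_, hres (ζ + π) hx (by simpa using hπ1')⟩
    -- binomial expansion in the ring of integers
    let Z : OL L := ⟨ζ, hζ⟩
    let P : OL L := ⟨π, hπ1.le⟩
    let f : (OL L)[X] := X ^ q - X
    obtain ⟨k, hk⟩ := f.binomExpansion Z P
    have hk' : (ζ + π) ^ q - (ζ + π)
        = (ζ ^ q - ζ) + ((q : L) * ζ ^ (q - 1) - 1) * π + (k : L) * π ^ 2 := by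
      have := congrArg (fun z : OL L => (z : L)) hk
      simp only [f, eval_sub, eval_pow, eval_X, derivative_sub, derivative_X_pow, derivative_X,
        eval_mul, eval_one, eval_natCast, map_natCast] at this
      simpa [Z, P] using this
    rw [hk']
    have hk1 : ‖(k : L)‖ ≤ 1 := k.2
    refine norm_add3_eq hlt ?_ ?_
    · rw [norm_mul]
      have h1 : ‖(q : L) * ζ ^ (q - 1) - 1‖ = 1 := by
        have h2 : ‖(q : L) * ζ ^ (q - 1)‖ < 1 := by
          rw [norm_mul, norm_pow]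
          calc ‖(q : L)‖ * ‖ζ‖ ^ (q - 1) ≤ ‖(q : L)‖ * 1 :=
                mul_le_mul_of_nonneg_left (pow_le_one₀ (norm_nonneg _) hζ') (norm_nonneg _)
            _ = ‖(q : L)‖ := mul_one _
            _ < 1 := hq1'
        rw [sub_eq_add_neg,
          IsUltrametricDist.norm_add_eq_max_of_norm_ne_norm (by simpa using h2.ne)]
        simpa using h2.le
      rw [h1, one_mul]
    · rw [norm_mul, norm_pow]
      calc ‖(k : L)‖ * ‖π‖ ^ 2 ≤ 1 * ‖π‖ ^ 2 :=
            mul_le_mul_of_nonneg_right hk1 (by positivity)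
        _ = ‖π‖ * ‖π‖ := by ring
        _ < 1 * ‖π‖ := mul_lt_mul_of_pos_right hπ1' hπ0'
        _ = ‖π‖ := one_mul _

variable {L}

omit [FiniteDimensional ℚ_[p] L] in
/-- Finite successive approximation: for a good generator `x`, every integer `a` of `L` and
every automorphism `σ`: `‖σ a - a‖ ≤ max ‖σ x - x‖ ‖π‖^J`. -/
theorem norm_map_sub_le_max {x π : L} {q : ℕ} (h : IsGoodGen L x π q) (σ : L ≃ₐ[ℚ_[p]] L)
    (J : ℕ) : ∀ a : L, ‖a‖ ≤ 1 → ‖σ a - a‖ ≤ max ‖σ x - x‖ (‖π‖ ^ J) := by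
  obtain ⟨hx, hπ0, hπ1, hπmax, hxq, hres⟩ := h
  have hσ : ∀ a : L, ‖σ a‖ = ‖a‖ := fun a => norm_algEquiv σ a
  have hσx : ‖σ x‖ ≤ 1 := by rw [hσ]; exact hx
  -- the uniformizer `ϖ = x^q - x`
  set ϖ : L := x ^ q - x with hϖ
  have hϖn : ‖ϖ‖ = ‖π‖ := hxq
  have hϖ0 : ϖ ≠ 0 := by
    intro h0
    rw [h0, norm_zero] at hϖn
    exact hπ0.ne hϖn
  have hσϖ : ‖σ ϖ - ϖ‖ ≤ ‖σ x - x‖ := by
    have h1 : σ ϖ - ϖ = ((σ x) ^ q - x ^ q) - (σ x - x) := by
      rw [hϖ]; simp only [map_sub, map_pow]; ring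
    rw [h1, sub_eq_add_neg]
    refine (IsUltrametricDist.norm_add_le_max _ _).trans (max_le ?_ ?_)
    · exact norm_pow_sub_pow_le hσx hx q
    · rw [norm_neg]
  induction J with
  | zero =>
    intro a ha
    refine le_max_of_le_right ?_
    rw [pow_zero]
    have : ‖((σ a : L) : PadicAlgCl p) - (a : PadicAlgCl p)‖ ≤ 1 := norm_sub_le_one σ ha
    exact this
  | succ J ih =>
    -- the step for multiples of `ϖ`
    have hmul : ∀ b : L, ‖b‖ ≤ ‖π‖ → ‖σ b - b‖ ≤ max ‖σ x - x‖ (‖π‖ ^ (J + 1)) := by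
      intro b hb
      set c : L := b / ϖ with hc
      have hbc : b = ϖ * c := by rw [hc]; field_simp
      have hc1 : ‖c‖ ≤ 1 := by
        rw [hc, norm_div, hϖn]
        exact div_le_one_of_le₀ hb (norm_nonneg _)
      have h1 : σ b - b = σ ϖ * (σ c - c) + (σ ϖ - ϖ) * c := by
        rw [hbc]; simp only [map_mul]; ring
      rw [h1]
      refine (IsUltrametricDist.norm_add_le_max _ _).trans (max_le ?_ ?_)
      · rw [norm_mul, hσ, hϖn]
        have h2 := ih c hc1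
        rcases le_max_iff.mp h2 with h3 | h3
        · refine le_max_of_le_left ?_
          calc ‖π‖ * ‖σ c - c‖ ≤ 1 * ‖σ x - x‖ :=
                mul_le_mul hπ1.le h3 (norm_nonneg _) zero_le_one
            _ = ‖σ x - x‖ := one_mul _
        · refine le_max_of_le_right ?_
          rw [pow_succ']
          exact mul_le_mul_of_nonneg_left h3 hπ0.le
      · refine le_max_of_le_left ?_
        rw [norm_mul]
        calc ‖σ ϖ - ϖ‖ * ‖c‖ ≤ ‖σ x - x‖ * 1 :=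
              mul_le_mul hσϖ hc1 (norm_nonneg _) (norm_nonneg _)
          _ = ‖σ x - x‖ := mul_one _
    intro a ha
    rcases hres a ha with h1 | ⟨m, hm⟩
    · exact hmul a h1
    · have h2 : σ a - a = (σ (a - x ^ m) - (a - x ^ m)) + ((σ x) ^ m - x ^ m) := by
        simp only [map_sub, map_pow]; ring
      rw [h2]
      refine (IsUltrametricDist.norm_add_le_max _ _).trans (max_le (hmul _ hm) ?_)
      exact le_max_of_le_left (norm_pow_sub_pow_le hσx hx m)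

omit [FiniteDimensional ℚ_[p] L] in
/-- For a good generator `x`: `‖σ a - a‖ ≤ ‖σ x - x‖` for all integers `a`. -/
theorem norm_map_sub_le_of_goodGen {x π : L} {q : ℕ} (h : IsGoodGen L x π q)
    (σ : L ≃ₐ[ℚ_[p]] L) (a : L) (ha : ‖a‖ ≤ 1) : ‖σ a - a‖ ≤ ‖σ x - x‖ := by
  by_contra hcon
  have hlt : ‖σ x - x‖ < ‖σ a - a‖ := not_le.mp hcon
  have hpos : 0 < ‖σ a - a‖ := (norm_nonneg _).trans_lt hlt
  obtain ⟨J, hJ⟩ := exists_pow_lt_of_lt_one hpos h.2.2.1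
  have := norm_map_sub_le_max h σ J a ha
  exact absurd this (not_le.mpr (max_lt hlt hJ))

omit [FiniteDimensional ℚ_[p] L] in
/-- For a good generator `x`: `depth σ = ‖σ x - x‖`. -/
theorem depth_eq_of_goodGen {x π : L} {q : ℕ} (h : IsGoodGen L x π q) (σ : L ≃ₐ[ℚ_[p]] L) :
    depth p L σ = ‖σ x - x‖ := by
  refine le_antisymm (depth_le σ fun a ha => ?_) ?_
  · exact norm_map_sub_le_of_goodGen h σ a ha
  · exact norm_sub_le_depth σ h.1

end Fermat.Agent.S56.FL.H15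

end
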