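import Mathlib

set_option autoImplicit false

/-!
# Herbrand's theorem, combinatorial part (helper15)

`Γ` a group, `D : Γ → ℝ` an ultrametric "depth" (`D ≥ 0`, `D (g h) ≤ max (D g) (D h)`,
`D g⁻¹ = D g`), `N ≤ H` finite subgroups.  With `cosetProd N D g = ∏_{ν ∈ N} D (g ν)`:
if `σ₀` has minimal depth in its coset `σ₀ N`, then
`∏_{τ ∈ H} max (cosetProd σ₀) (cosetProd τ) = (∏_{τ ∈ H} max (D σ₀) (D τ)) ^ |N|`.
(In additive notation: `Φ_{L/K'} = Φ_{M/K'} ∘ Φ_{L/M}` evaluated at `i(σ₀)`.)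
-/

namespace Fermat.Agent.S56.FL.H15

open Finset

variable {Γ : Type*} [Group Γ]

/-- An ultrametric depth function on a group. -/
structure IsDepthFn (D : Γ → ℝ) : Prop where
  nonneg : ∀ g, 0 ≤ D g
  mul_le : ∀ g h, D (g * h) ≤ max (D g) (D h)
  inv : ∀ g, D g⁻¹ = D g

variable (N : Subgroup Γ) [Fintype N] (D : Γ → ℝ)

/-- The product of `D` over the coset `g N`. -/
noncomputable def cosetProd (g : Γ) : ℝ := ∏ ν : N, D (g * ν)

variable {N D}

theorem cosetProd_nonneg (hD : IsDepthFn D) (g : Γ) : 0 ≤ cosetProd N D g :=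
  Finset.prod_nonneg fun _ _ => hD.nonneg _

theorem prod_mul_left_subgroup (f : Γ → ℝ) (g : Γ) (ν₁ : N) :
    ∏ ν : N, f (g * ν₁ * ν) = ∏ ν : N, f (g * ν) := by
  refine Fintype.prod_equiv (Equiv.mulLeft ν₁) _ _ fun ν => ?_
  simp [mul_assoc]

theorem cosetProd_mul_right (g : Γ) (ν₁ : N) : cosetProd N D (g * ν₁) = cosetProd N D g :=
  prod_mul_left_subgroup D g ν₁

theorem exists_min_coset (D : Γ → ℝ) (g : Γ) : ∃ ν₀ : N, ∀ ν : N, D (g * ν₀) ≤ D (g * ν) := by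
  obtain ⟨ν₀, hν₀⟩ := Finite.exists_min (fun ν : N => D (g * ν))
  exact ⟨ν₀, hν₀⟩

omit [Fintype N] in
theorem eq_max_of_min (hD : IsDepthFn D) {g₀ : Γ} (hmin : ∀ ν : N, D g₀ ≤ D (g₀ * ν))
    (ν : N) : D (g₀ * ν) = max (D (ν : Γ)) (D g₀) := by
  apply le_antisymm
  · rw [max_comm]; exact hD.mul_le _ _
  · refine max_le ?_ (hmin ν)
    have h1 : (ν : Γ) = g₀⁻¹ * (g₀ * ν) := by group
    have h2 : D (ν : Γ) ≤ max (D g₀⁻¹) (D (g₀ * ν)) := by
      conv_lhs => rw [h1]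
      exact hD.mul_le _ _
    rw [hD.inv] at h2
    exact h2.trans (max_le (hmin ν) le_rfl)

theorem max_prod_max (hD : IsDepthFn D) (a b : ℝ) :
    max (∏ ν : N, max (D (ν : Γ)) a) (∏ ν : N, max (D (ν : Γ)) b)
      = ∏ ν : N, max (D (ν : Γ)) (max a b) := by
  have key : ∀ a b : ℝ, a ≤ b →
      max (∏ ν : N, max (D (ν : Γ)) a) (∏ ν : N, max (D (ν : Γ)) b)
        = ∏ ν : N, max (D (ν : Γ)) (max a b) := by
    intro a b hab
    rw [max_eq_right hab]
    apply max_eq_right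
    refine Finset.prod_le_prod (fun ν _ => ?_) (fun ν _ => ?_)
    · exact (hD.nonneg _).trans (le_max_left _ _)
    · exact max_le_max le_rfl hab
  rcases le_total a b with h | h
  · exact key a b h
  · rw [max_comm, max_comm a b]
    exact key b a h

theorem max_cosetProd (hD : IsDepthFn D) {σ₀ : Γ} (hσ : ∀ ν : N, D σ₀ ≤ D (σ₀ * ν)) (τ : Γ) :
    max (cosetProd N D σ₀) (cosetProd N D τ) = ∏ ν : N, max (D σ₀) (D (τ * ν)) := by
  obtain ⟨ν₁, hν₁⟩ := exists_min_coset (N := N) D τ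
  have hτ₀ : ∀ ν : N, D (τ * ν₁) ≤ D (τ * ν₁ * ν) := by
    intro ν
    have := hν₁ (ν₁ * ν)
    simpa [mul_assoc] using this
  have h1 : cosetProd N D σ₀ = ∏ ν : N, max (D (ν : Γ)) (D σ₀) :=
    Finset.prod_congr rfl fun ν _ => eq_max_of_min hD hσ ν
  have h2 : cosetProd N D τ = ∏ ν : N, max (D (ν : Γ)) (D (τ * ν₁)) := by
    rw [← cosetProd_mul_right τ ν₁]
    exact Finset.prod_congr rfl fun ν _ => eq_max_of_min hD hτ₀ ν
  rw [h1, h2, max_prod_max hD]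
  rw [← prod_mul_left_subgroup (fun g => max (D σ₀) (D g)) τ ν₁]
  refine Finset.prod_congr rfl fun ν _ => ?_
  rw [eq_max_of_min hD hτ₀ ν, max_left_comm]

/-- The combinatorial form of Herbrand's theorem. -/
theorem prod_max_cosetProd (hD : IsDepthFn D) (H : Subgroup Γ) [Fintype H] (hNH : N ≤ H)
    {σ₀ : Γ} (hσ : ∀ ν : N, D σ₀ ≤ D (σ₀ * ν)) :
    ∏ τ : H, max (cosetProd N D σ₀) (cosetProd N D (τ : Γ))
      = (∏ τ : H, max (D σ₀) (D (τ : Γ))) ^ Fintype.card N := by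
  have h1 : ∀ τ : H, max (cosetProd N D σ₀) (cosetProd N D (τ : Γ))
      = ∏ ν : N, max (D σ₀) (D ((τ : Γ) * ν)) := fun τ => max_cosetProd hD hσ τ
  simp_rw [h1]
  rw [Finset.prod_comm]
  have h2 : ∀ ν : N, ∏ τ : H, max (D σ₀) (D ((τ : Γ) * ν)) = ∏ τ : H, max (D σ₀) (D (τ : Γ)) := by
    intro ν
    refine Fintype.prod_equiv (Equiv.mulRight (⟨ν, hNH ν.2⟩ : H)) _ _ fun τ => ?_
    simp
  simp_rw [h2]
  rw [Finset.prod_const, Finset.card_univ]

end Fermat.Agent.S56.FL.H15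

namespace Fermat.Agent.S56.FL.H15

open Finset

variable {Γ : Type*} [Group Γ] {N : Subgroup Γ} [Fintype N] {D : Γ → ℝ}

/-- The combinatorial form of Herbrand's theorem, `H = ⊤`. -/
theorem prod_max_cosetProd_top [Fintype Γ] (hD : IsDepthFn D)
    {σ₀ : Γ} (hσ : ∀ ν : N, D σ₀ ≤ D (σ₀ * ν)) :
    ∏ τ : Γ, max (cosetProd N D σ₀) (cosetProd N D τ)
      = (∏ τ : Γ, max (D σ₀) (D τ)) ^ Fintype.card N := by
  have h1 : ∀ τ : Γ, max (cosetProd N D σ₀) (cosetProd N D τ)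
      = ∏ ν : N, max (D σ₀) (D (τ * ν)) := fun τ => max_cosetProd hD hσ τ
  simp_rw [h1]
  rw [Finset.prod_comm]
  have h2 : ∀ ν : N, ∏ τ : Γ, max (D σ₀) (D (τ * ν)) = ∏ τ : Γ, max (D σ₀) (D τ) := by
    intro ν
    refine Fintype.prod_equiv (Equiv.mulRight (ν : Γ)) _ _ fun τ => ?_
    simp
  simp_rw [h2]
  rw [Finset.prod_const, Finset.card_univ]

/-- Products over a group along a surjective homomorphism: every fibre has `|ker|` elements. -/
theorem prod_comp_hom {Γ' : Type*} [Group Γ'] [Fintype Γ] [Fintype Γ'] (r : Γ →* Γ')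
    (hr : Function.Surjective r) [Fintype r.ker] (φ : Γ' → ℝ) :
    ∏ τ : Γ, φ (r τ) = (∏ τ' : Γ', φ τ') ^ Fintype.card r.ker := by
  classical
  rw [Finset.prod_comp (s := (Finset.univ : Finset Γ)) φ r]
  have himg : (Finset.univ : Finset Γ).image r = Finset.univ := by
    ext b
    simp only [Finset.mem_image, Finset.mem_univ, true_and, iff_true]
    exact hr b
  rw [himg, ← Finset.prod_pow]
  refine Finset.prod_congr rfl fun b _ => ?_
  congr 1
  have h1 : #{a ∈ (Finset.univ : Finset Γ) | r a = b} = #{a ∈ (Finset.univ : Finset Γ) | r a = 1} :=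
    MonoidHom.card_fiber_eq_of_mem_range r (hr b) (hr 1)
  rw [h1, ← Fintype.card_subtype]
  exact Fintype.card_congr (Equiv.subtypeEquivRight fun a => by simp [MonoidHom.mem_ker])

end Fermat.Agent.S56.FL.H15
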