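import Mathlib
import Fermat.Agent.S56.FL.LF.H15_Gen

set_option autoImplicit false

/-!
# LOC-p-FL, LF basics (helper15), part 5: value group, roots of unity, integrality

* `norm_pow_sub_pow_le_algCl` : `‖y^m - z^m‖ ≤ ‖y - z‖` for integers of `K̄`.
* `norm_natCast_eq_one`       : `‖m‖ = 1` for `p ∤ m`.
* `norm_zeta_sub_one`         : `‖ζ - 1‖^(p-1) = p⁻¹` for a primitive `p`-th root of unity.
* `exists_goodGen_q`          : a good generator with `‖q‖ < 1`.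
* `exists_norm_eq_zpow`       : the value group of `L` is generated by `‖π‖`.
-/

noncomputable section

namespace Fermat.Agent.S56.FL.H15

open scoped NNReal
open Fermat.Agent.S56.FL Module Polynomial

variable {p : ℕ} [Fact p.Prime]

theorem norm_pow_sub_pow_le_algCl {y z : PadicAlgCl p} (hy : ‖y‖ ≤ 1) (hz : ‖z‖ ≤ 1) (m : ℕ) :
    ‖y ^ m - z ^ m‖ ≤ ‖y - z‖ := by
  induction m with
  | zero => simp
  | succ m ih =>
    have h : y ^ (m + 1) - z ^ (m + 1) = y * (y ^ m - z ^ m) + (y - z) * z ^ m := by ring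
    rw [h]
    refine (IsUltrametricDist.norm_add_le_max _ _).trans (max_le ?_ ?_)
    · rw [norm_mul]
      calc ‖y‖ * ‖y ^ m - z ^ m‖ ≤ 1 * ‖y - z‖ :=
            mul_le_mul hy ih (norm_nonneg _) zero_le_one
        _ = ‖y - z‖ := one_mul _
    · rw [norm_mul, norm_pow]
      calc ‖y - z‖ * ‖z‖ ^ m ≤ ‖y - z‖ * 1 :=
            mul_le_mul_of_nonneg_left (pow_le_one₀ (norm_nonneg _) hz) (norm_nonneg _)
        _ = ‖y - z‖ := mul_one _

theorem norm_natCast_eq_one {m : ℕ} (hm : ¬ p ∣ m) : ‖(m : PadicAlgCl p)‖ = 1 := by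
  have h : (m : PadicAlgCl p) = algebraMap ℚ_[p] (PadicAlgCl p) (m : ℚ_[p]) := by simp
  rw [h, PadicAlgCl.norm_extends, Padic.norm_natCast_eq_one_iff]
  exact ((Nat.Prime.coprime_iff_not_dvd (Fact.out : p.Prime)).mpr hm)

theorem norm_natCast_lt_one {m : ℕ} (hm : p ∣ m) : ‖(m : PadicAlgCl p)‖ < 1 := by
  have h : (m : PadicAlgCl p) = algebraMap ℚ_[p] (PadicAlgCl p) (m : ℚ_[p]) := by simp
  rw [h, PadicAlgCl.norm_extends]
  exact (Padic.norm_natCast_lt_one_iff).mpr hm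

theorem norm_sub_le_max_algCl (a b : PadicAlgCl p) : ‖a - b‖ ≤ max ‖a‖ ‖b‖ := by
  rw [sub_eq_add_neg]
  exact (IsUltrametricDist.norm_add_le_max _ _).trans (by rw [norm_neg])

/-- If `‖b‖ < ‖a‖` then `‖a + b‖ = ‖a‖`. -/
theorem norm_add_eq_left {a b : PadicAlgCl p} (h : ‖b‖ < ‖a‖) : ‖a + b‖ = ‖a‖ := by
  rw [IsUltrametricDist.norm_add_eq_max_of_norm_ne_norm h.ne']
  exact max_eq_left h.le

theorem norm_sub_eq_left {a b : PadicAlgCl p} (h : ‖b‖ < ‖a‖) : ‖a - b‖ = ‖a‖ := by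
  rw [sub_eq_add_neg]
  exact norm_add_eq_left (by rwa [norm_neg])

theorem norm_add_eq_right {a b : PadicAlgCl p} (h : ‖a‖ < ‖b‖) : ‖a + b‖ = ‖b‖ := by
  rw [add_comm]; exact norm_add_eq_left h

/-- `‖ζ - 1‖^(p-1) = p⁻¹` for `ζ ≠ 1`, `ζ^p = 1`. -/
theorem norm_zeta_sub_one {ζ : PadicAlgCl p} (h1 : ζ ≠ 1) (hζ : ζ ^ p = 1) :
    ‖ζ - 1‖ ^ (p - 1) = (p : ℝ)⁻¹ := by
  have hp : p.Prime := Fact.out
  set z : PadicAlgCl p := ζ - 1 with hz
  have hz0 : z ≠ 0 := sub_ne_zero.mpr h1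
  have hzpos : 0 < ‖z‖ := norm_pos_iff.mpr hz0
  have hζn : ‖ζ‖ = 1 := by
    have : ‖ζ‖ ^ p = 1 := by rw [← norm_pow, hζ, norm_one]
    exact (pow_eq_one_iff_of_nonneg (norm_nonneg _) hp.ne_zero).mp this
  have hz1 : ‖z‖ ≤ 1 := by
    rw [hz]
    exact (norm_sub_le_max_algCl _ _).trans (max_le hζn.le (by simp))
  -- the binomial identity
  have hbin := add_pow_prime_eq' hp z (1 : PadicAlgCl p)
  have hz1' : z + 1 = ζ := by rw [hz]; ring
  rw [hz1', hζ] at hbin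
  simp only [one_pow, mul_one] at hbin
  set S : PadicAlgCl p := ∑ k ∈ Finset.Ioo 0 p, z ^ k * ((p.choose k / p : ℕ) : PadicAlgCl p)
    with hS
  have hzp : z ^ p = -((p : PadicAlgCl p) * S) := by
    have : z ^ p + (p : PadicAlgCl p) * S = 0 := by
      have h2 : (1 : PadicAlgCl p) = z ^ p + 1 + (p : PadicAlgCl p) * S := hbin
      linear_combination -h2
    exact eq_neg_of_add_eq_zero_left this
  have hterm : ∀ k ∈ Finset.Ioo 0 p,
      ‖z ^ k * ((p.choose k / p : ℕ) : PadicAlgCl p)‖ ≤ ‖z‖ ^ k := by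
    intro k _
    rw [norm_mul, norm_pow]
    calc ‖z‖ ^ k * ‖((p.choose k / p : ℕ) : PadicAlgCl p)‖ ≤ ‖z‖ ^ k * 1 :=
          mul_le_mul_of_nonneg_left (norm_natCast_le_one _) (by positivity)
      _ = ‖z‖ ^ k := mul_one _
  have hS1 : ‖S‖ ≤ 1 := by
    refine IsUltrametricDist.norm_sum_le_of_forall_le_of_nonneg zero_le_one fun k hk => ?_
    exact (hterm k hk).trans (pow_le_one₀ (norm_nonneg _) hz1)
  have hpn : ‖(p : PadicAlgCl p)‖ = (p : ℝ)⁻¹ := norm_p_algCl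
  have hplt : (p : ℝ)⁻¹ < 1 := inv_lt_one_of_one_lt₀ one_lt_p_real
  have hzlt : ‖z‖ < 1 := by
    by_contra hcon
    have hz_eq : ‖z‖ = 1 := le_antisymm hz1 (not_lt.mp hcon)
    have h3 : ‖z ^ p‖ = 1 := by rw [norm_pow, hz_eq, one_pow]
    rw [hzp, norm_neg, norm_mul, hpn] at h3
    have : (p : ℝ)⁻¹ * ‖S‖ ≤ (p : ℝ)⁻¹ * 1 :=
      mul_le_mul_of_nonneg_left hS1 (by positivity)
    linarith
  -- `S = z + (terms divisible by z^2)`
  have h1mem : 1 ∈ Finset.Ioo 0 p := by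
    rw [Finset.mem_Ioo]; exact ⟨one_pos, hp.one_lt⟩
  have hsplit := Finset.add_sum_erase (Finset.Ioo 0 p)
    (fun k => z ^ k * ((p.choose k / p : ℕ) : PadicAlgCl p)) h1mem
  have hc1 : ((p.choose 1 / p : ℕ) : PadicAlgCl p) = 1 := by
    rw [Nat.choose_one_right, Nat.div_self hp.pos]; simp
  simp only [pow_one, hc1, mul_one] at hsplit
  set T : PadicAlgCl p := ∑ k ∈ (Finset.Ioo 0 p).erase 1,
    z ^ k * ((p.choose k / p : ℕ) : PadicAlgCl p) with hT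
  have hT2 : ‖T‖ ≤ ‖z‖ ^ 2 := by
    refine IsUltrametricDist.norm_sum_le_of_forall_le_of_nonneg (by positivity) fun k hk => ?_
    have hk' := Finset.mem_erase.mp hk
    have hk2 : 2 ≤ k := by
      have := (Finset.mem_Ioo.mp hk'.2).1
      have := hk'.1
      omega
    exact (hterm k hk'.2).trans (pow_le_pow_of_le_one (norm_nonneg _) hz1 hk2)
  have hTlt : ‖T‖ < ‖z‖ := by
    refine hT2.trans_lt ?_
    calc ‖z‖ ^ 2 = ‖z‖ * ‖z‖ := by ring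
      _ < 1 * ‖z‖ := mul_lt_mul_of_pos_right hzlt hzpos
      _ = ‖z‖ := one_mul _
  have hSn : ‖S‖ = ‖z‖ := by
    rw [hS, ← hsplit]
    exact norm_add_eq_left hTlt
  have h4 : ‖z‖ ^ p = (p : ℝ)⁻¹ * ‖z‖ := by
    rw [← norm_pow, hzp, norm_neg, norm_mul, hpn, hSn]
  have h5 : ‖z‖ ^ (p - 1) * ‖z‖ = (p : ℝ)⁻¹ * ‖z‖ := by
    rw [← pow_succ, Nat.sub_add_cancel hp.one_le]; exact h4
  exact mul_right_cancel₀ hzpos.ne' h5

variable (L : IntermediateField ℚ_[p] (PadicAlgCl p))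

/-- The value group of `L` is generated by the norm of a uniformizer. -/
theorem exists_norm_eq_zpow {π : L} (hπ0 : 0 < ‖π‖) (hπ1 : ‖π‖ < 1)
    (hmax : ∀ a : L, ‖a‖ < 1 → ‖a‖ ≤ ‖π‖) (a : L) (ha : a ≠ 0) :
    ∃ j : ℤ, ‖a‖ = ‖π‖ ^ j := by
  have hπne : π ≠ 0 := norm_pos_iff.mp hπ0
  -- units have norm one
  have key : ∀ b : L, b ≠ 0 → ‖b‖ ≤ 1 → ∃ j : ℕ, ‖b‖ = ‖π‖ ^ j := by
    intro b hb hb1
    have hbpos : 0 < ‖b‖ := norm_pos_iff.mpr hb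
    obtain ⟨N, hN⟩ := exists_pow_lt_of_lt_one hbpos hπ1
    -- find the least `j` with `‖π‖^(j+1) < ‖b‖`
    have hex : ∃ j : ℕ, ‖π‖ ^ (j + 1) < ‖b‖ :=
      ⟨N, (pow_le_pow_of_le_one hπ0.le hπ1.le (Nat.le_succ N)).trans_lt hN⟩
    classical
    set j := Nat.find hex with hj
    have hj1 : ‖π‖ ^ (j + 1) < ‖b‖ := Nat.find_spec hex
    have hj2 : ‖b‖ ≤ ‖π‖ ^ j := by
      rcases Nat.eq_zero_or_pos j with h0 | hpos
      · rw [h0, pow_zero]; exact hb1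
      · have := Nat.find_min hex (m := j - 1) (by omega)
        rw [Nat.sub_add_cancel hpos] at this
        exact not_lt.mp this
    refine ⟨j, le_antisymm hj2 ?_⟩
    by_contra hcon
    have hlt : ‖b‖ < ‖π‖ ^ j := not_le.mp hcon
    have hc : ‖b / π ^ j‖ < 1 := by
      rw [norm_div, norm_pow, div_lt_one (pow_pos hπ0 j)]
      exact hlt
    have := hmax _ hc
    rw [norm_div, norm_pow, div_le_iff₀ (pow_pos hπ0 j), ← pow_succ'] at this
    exact absurd hj1 (not_lt.mpr this)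
  rcases le_or_gt ‖a‖ 1 with h | h
  · obtain ⟨j, hj⟩ := key a ha h
    exact ⟨j, by rw [hj, zpow_natCast]⟩
  · have hinv : ‖a⁻¹‖ ≤ 1 := by
      rw [norm_inv]; exact inv_le_one_of_one_le₀ h.le
    obtain ⟨j, hj⟩ := key a⁻¹ (inv_ne_zero ha) hinv
    refine ⟨-j, ?_⟩
    rw [zpow_neg, zpow_natCast, ← hj, norm_inv, inv_inv]

/-- The norm of a nonzero integer of `L` is a natural power of the norm of a uniformizer. -/
theorem exists_norm_eq_pow {π : L} (hπ0 : 0 < ‖π‖) (hπ1 : ‖π‖ < 1)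
    (hmax : ∀ a : L, ‖a‖ < 1 → ‖a‖ ≤ ‖π‖) (a : L) (ha : a ≠ 0) (ha1 : ‖a‖ ≤ 1) :
    ∃ j : ℕ, ‖a‖ = ‖π‖ ^ j := by
  obtain ⟨j, hj⟩ := exists_norm_eq_zpow L hπ0 hπ1 hmax a ha
  have hj0 : 0 ≤ j := by
    by_contra hcon
    have hneg : j < 0 := not_le.mp hcon
    have : 1 < ‖π‖ ^ j := by
      have h1 : ‖π‖ ^ j = (‖π‖ ^ (-j).toNat)⁻¹ := by
        rw [← zpow_natCast, ← zpow_neg]
        congr 1
        have : ((-j).toNat : ℤ) = -j := Int.toNat_of_nonneg (by omega)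
        omega
      rw [h1]
      have h2 : ‖π‖ ^ (-j).toNat < 1 :=
        pow_lt_one₀ hπ0.le hπ1 (by
          intro h0
          have : ((-j).toNat : ℤ) = -j := Int.toNat_of_nonneg (by omega)
          omega)
      exact (one_lt_inv₀ (pow_pos hπ0 _)).mpr h2
    rw [← hj] at this
    exact absurd ha1 (not_le.mpr this)
  refine ⟨j.toNat, ?_⟩
  rw [hj, ← zpow_natCast, Int.toNat_of_nonneg hj0]

/-- A good generator whose `q` has norm `< 1`. -/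
theorem exists_goodGen_q [FiniteDimensional ℚ_[p] L] :
    ∃ (x π : L) (q : ℕ), IsGoodGen L x π q ∧ ‖(q : PadicAlgCl p)‖ < 1 := by
  obtain ⟨π, hπ0, hπ1, hπmax⟩ := exists_uniformizer L
  obtain ⟨ζ, q, hζ, hq0, hq1, hpowq, hgen⟩ := exists_residue_generator L
  have hπ0' : 0 < ‖π‖ := hπ0
  have hπ1' : ‖π‖ < 1 := hπ1
  have hπmax' : ∀ a : L, ‖a‖ < 1 → ‖a‖ ≤ ‖π‖ := hπmax
  have hζ' : ‖ζ‖ ≤ 1 := hζ
  have hq1' : ‖(q : L)‖ < 1 := by
    have : ‖((q : L) : PadicAlgCl p)‖ < 1 := by push_cast; exact hq1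
    exact this
  have hpowq' : ∀ a : L, ‖a‖ ≤ 1 → ‖a ^ q - a‖ < 1 := by
    intro a ha
    have := hpowq a ha
    have h2 : ‖((a ^ q - a : L) : PadicAlgCl p)‖ < 1 := by push_cast; exact this
    exact h2
  have hgen' : ∀ a : L, ‖a‖ = 1 → ∃ m : ℕ, ‖a - ζ ^ m‖ < 1 := by
    intro a ha
    obtain ⟨m, hm⟩ := hgen a ha
    refine ⟨m, ?_⟩
    have h2 : ‖((a - ζ ^ m : L) : PadicAlgCl p)‖ < 1 := by push_cast; exact hm
    exact h2
  have hres : ∀ x : L, ‖x‖ ≤ 1 → ‖x - ζ‖ < 1 →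
      ∀ a : L, ‖a‖ ≤ 1 → ‖a‖ ≤ ‖π‖ ∨ ∃ m : ℕ, ‖a - x ^ m‖ ≤ ‖π‖ := by
    intro x hx hxζ a ha
    rcases lt_or_eq_of_le ha with h | h
    · exact Or.inl (hπmax' a h)
    · obtain ⟨m, hm⟩ := hgen' a h
      refine Or.inr ⟨m, hπmax' _ ?_⟩
      have h1 : a - x ^ m = (a - ζ ^ m) + (ζ ^ m - x ^ m) := by ring
      rw [h1]
      refine (IsUltrametricDist.norm_add_le_max _ _).trans_lt (max_lt hm ?_)
      refine (norm_pow_sub_pow_le hζ' hx m).trans_lt ?_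
      rwa [norm_sub_rev]
  by_cases hcase : ‖ζ ^ q - ζ‖ = ‖π‖
  · exact ⟨ζ, π, q, ⟨hζ', hπ0', hπ1', hπmax', hcase, hres ζ hζ' (by simp)⟩, hq1⟩
  · have hlt : ‖ζ ^ q - ζ‖ < ‖π‖ := lt_of_le_of_ne (hπmax' _ (hpowq' ζ hζ')) hcase
    have hx : ‖ζ + π‖ ≤ 1 :=
      (IsUltrametricDist.norm_add_le_max _ _).trans (max_le hζ' hπ1'.le)
    refine ⟨ζ + π, π, q, ⟨hx, hπ0', hπ1', hπmax', ?_,
      hres (ζ + π) hx (by simpa using hπ1')⟩, hq1⟩
    let Z : OL L := ⟨ζ, hζ⟩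
    let P : OL L := ⟨π, hπ1.le⟩
    let f : (OL L)[X] := X ^ q - X
    obtain ⟨k, hk⟩ := f.binomExpansion Z P
    have hk' : (ζ + π) ^ q - (ζ + π)
        = (ζ ^ q - ζ) + ((q : L) * ζ ^ (q - 1) - 1) * π + (k : L) * π ^ 2 := by
      have := congrArg (fun z : OL L => (z : L)) hk
      simp only [f, eval_sub, eval_pow, eval_X, derivative_sub, derivative_X_pow, derivative_X,
        eval_mul, eval_one, eval_natCast, map_natCast] at this
      simpa [Z, P] using this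
    rw [hk']
    have hk1 : ‖(k : L)‖ ≤ 1 := k.2
    refine norm_add3_eq hlt ?_ ?_
    · rw [norm_mul]
      have h1 : ‖(q : L) * ζ ^ (q - 1) - 1‖ = 1 := by
        have h2 : ‖(q : L) * ζ ^ (q - 1)‖ < 1 := by
          rw [norm_mul, norm_pow]
          calc ‖(q : L)‖ * ‖ζ‖ ^ (q - 1) ≤ ‖(q : L)‖ * 1 :=
                mul_le_mul_of_nonneg_left (pow_le_one₀ (norm_nonneg _) hζ') (norm_nonneg _)
            _ = ‖(q : L)‖ := mul_one _
            _ < 1 := hq1'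
        rw [sub_eq_add_neg,
          IsUltrametricDist.norm_add_eq_max_of_norm_ne_norm (by simpa using h2.ne)]
        simpa using h2.le
      rw [h1, one_mul]
    · rw [norm_mul, norm_pow]
      calc ‖(k : L)‖ * ‖π‖ ^ 2 ≤ 1 * ‖π‖ ^ 2 :=
            mul_le_mul_of_nonneg_right hk1 (by positivity)
        _ = ‖π‖ * ‖π‖ := by ring
        _ < 1 * ‖π‖ := mul_lt_mul_of_pos_right hπ1' hπ0'
        _ = ‖π‖ := one_mul _

end Fermat.Agent.S56.FL.H15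

end
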