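import Mathlib
import Fermat.Agent.S56.FL.LF.H15_Value
import Fermat.Agent.S56.FL.H15_Herb

set_option autoImplicit false
set_option linter.style.haveILetI false

/-!
# LOC-p-FL, LF basics (helper15), part 6: monogenicity `𝒪_L = ℤ_p[x]`

* `phiZ p : ℤ_[p] →+* K̄`, evaluation of `g : ℤ_[p][X]` at `y : K̄` is `g.eval₂ (phiZ p) y`.
* `IsMinZ L x Pz` : `Pz ∈ ℤ_p[X]` is the minimal polynomial of the generator `x` of `L`
  (monic, degree `[L : ℚ_p]`, `Pz = ∏_τ (X - τ x)`).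
* `exists_isMinZ`  : existence, for a good generator of a Galois `L`.
* `IsMinZ.dvd_of_eval₂_eq_zero` : `g(x) = 0 → Pz ∣ g` in `ℤ_p[X]`.
* `exists_poly_eq` : every integer of `L` is `g(x)` with `g ∈ ℤ_p[X]` (compactness of `ℤ_p^n`).
-/

noncomputable section

namespace Fermat.Agent.S56.FL.H15

open scoped NNReal
open Fermat.Agent.S56.FL Module Polynomial

variable (p : ℕ) [Fact p.Prime]

/-- The canonical ring homomorphism `ℤ_p → K̄`. -/
def phiZ : ℤ_[p] →+* PadicAlgCl p :=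
  (algebraMap ℚ_[p] (PadicAlgCl p)).comp PadicInt.Coe.ringHom

variable {p}

theorem phiZ_apply (c : ℤ_[p]) :
    phiZ p c = algebraMap ℚ_[p] (PadicAlgCl p) (c : ℚ_[p]) := rfl

theorem norm_phiZ (c : ℤ_[p]) : ‖phiZ p c‖ = ‖c‖ := by
  rw [phiZ_apply, PadicAlgCl.norm_extends]
  rfl

theorem norm_phiZ_le_one (c : ℤ_[p]) : ‖phiZ p c‖ ≤ 1 := by
  rw [norm_phiZ]; exact PadicInt.norm_le_one c

theorem phiZ_injective : Function.Injective (phiZ p) := by
  intro a b h
  have h1 : algebraMap ℚ_[p] (PadicAlgCl p) (a : ℚ_[p])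
      = algebraMap ℚ_[p] (PadicAlgCl p) (b : ℚ_[p]) := h
  exact Subtype.ext ((algebraMap ℚ_[p] (PadicAlgCl p)).injective h1)

theorem phiZ_mem (F : IntermediateField ℚ_[p] (PadicAlgCl p)) (c : ℤ_[p]) : phiZ p c ∈ F :=
  F.algebraMap_mem _

theorem continuous_phiZ : Continuous (phiZ p) := by
  refine (AddMonoidHomClass.isometry_of_norm (phiZ p) fun c => ?_).continuous
  exact norm_phiZ c

theorem evZ_eq_sum (g : ℤ_[p][X]) (y : PadicAlgCl p) :
    g.eval₂ (phiZ p) y = ∑ i ∈ g.support, phiZ p (g.coeff i) * y ^ i := by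
  rw [eval₂_eq_sum, sum_def]

theorem norm_evZ_le_one {y : PadicAlgCl p} (hy : ‖y‖ ≤ 1) (g : ℤ_[p][X]) :
    ‖g.eval₂ (phiZ p) y‖ ≤ 1 := by
  rw [evZ_eq_sum]
  refine IsUltrametricDist.norm_sum_le_of_forall_le_of_nonneg zero_le_one fun i _ => ?_
  rw [norm_mul, norm_pow]
  exact mul_le_one₀ (norm_phiZ_le_one _) (by positivity) (pow_le_one₀ (norm_nonneg _) hy)

theorem evZ_mem {F : IntermediateField ℚ_[p] (PadicAlgCl p)} {y : PadicAlgCl p} (hy : y ∈ F)
    (g : ℤ_[p][X]) : g.eval₂ (phiZ p) y ∈ F := by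
  rw [evZ_eq_sum]
  exact F.sum_mem fun i _ => F.mul_mem (phiZ_mem F _) (pow_mem hy i)

theorem norm_evZ_sub_le {y z : PadicAlgCl p} (hy : ‖y‖ ≤ 1) (hz : ‖z‖ ≤ 1) (g : ℤ_[p][X]) :
    ‖g.eval₂ (phiZ p) y - g.eval₂ (phiZ p) z‖ ≤ ‖y - z‖ := by
  rw [evZ_eq_sum, evZ_eq_sum, ← Finset.sum_sub_distrib]
  refine IsUltrametricDist.norm_sum_le_of_forall_le_of_nonneg (norm_nonneg _) fun i _ => ?_
  rw [← mul_sub, norm_mul]
  calc ‖phiZ p (g.coeff i)‖ * ‖y ^ i - z ^ i‖ ≤ 1 * ‖y - z‖ :=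
        mul_le_mul (norm_phiZ_le_one _) (norm_pow_sub_pow_le_algCl hy hz i) (norm_nonneg _)
          zero_le_one
    _ = ‖y - z‖ := one_mul _

/-- The evaluation of a polynomial of degree `< n` as a sum over `Fin n`. -/
theorem evZ_eq_sum_fin (g : ℤ_[p][X]) (y : PadicAlgCl p) {n : ℕ} (hn : g.natDegree < n) :
    g.eval₂ (phiZ p) y = ∑ i : Fin n, phiZ p (g.coeff i) * y ^ (i : ℕ) := by
  rw [eval₂_eq_sum_range' (phiZ p) hn y, Finset.sum_range]

/-- The set of values at `x` of the polynomials of degree `< n` is compact. -/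
theorem isCompact_range_evZ (x : PadicAlgCl p) (n : ℕ) :
    IsCompact (Set.range fun c : Fin n → ℤ_[p] => ∑ i : Fin n, phiZ p (c i) * x ^ (i : ℕ)) := by
  refine isCompact_range ?_
  refine continuous_finsetSum _ fun i _ => ?_
  exact (continuous_phiZ.comp (continuous_apply i)).mul continuous_const

variable (L : IntermediateField ℚ_[p] (PadicAlgCl p))

/-- `Pz` is the minimal polynomial over `ℤ_p` of the generator `x` of `L`. -/
structure IsMinZ [FiniteDimensional ℚ_[p] L] (x : L) (Pz : ℤ_[p][X]) : Prop where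
  monic : Pz.Monic
  natDegree_eq : Pz.natDegree = finrank ℚ_[p] L
  map_eq : Pz.map PadicInt.Coe.ringHom = minpoly ℚ_[p] x
  map_phiZ : Pz.map (phiZ p) = ∏ τ : L ≃ₐ[ℚ_[p]] L, (X - C ((τ x : L) : PadicAlgCl p))

variable {L}

/-- An automorphism fixing a good generator is trivial. -/
theorem eq_one_of_map_goodGen {x π : L} {q : ℕ} (h : IsGoodGen L x π q)
    {σ : L ≃ₐ[ℚ_[p]] L} (hσ : σ x = x) : σ = 1 := by
  apply eq_one_of_depth_eq_zero
  rw [depth_eq_of_goodGen h σ, hσ, sub_self, norm_zero]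

theorem map_goodGen_injective {x π : L} {q : ℕ} (h : IsGoodGen L x π q) :
    Function.Injective fun τ : L ≃ₐ[ℚ_[p]] L => ((τ x : L) : PadicAlgCl p) := by
  intro σ τ hστ
  have h1 : σ x = τ x := Subtype.ext hστ
  have h2 : (τ⁻¹ * σ) x = x := by
    rw [AlgEquiv.mul_apply, h1]
    exact τ.symm_apply_apply x
  have h3 := eq_one_of_map_goodGen h h2
  calc σ = τ * (τ⁻¹ * σ) := by group
    _ = τ := by rw [h3, mul_one]

variable [FiniteDimensional ℚ_[p] L]

/-- The minimal polynomial of a good generator of a Galois `L` is `∏_τ (X - τ x)`. -/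
theorem minpoly_map_eq_prod (hN : Normal ℚ_[p] L) {x π : L} {q : ℕ} (h : IsGoodGen L x π q) :
    (minpoly ℚ_[p] x).map (algebraMap ℚ_[p] (PadicAlgCl p))
      = ∏ τ : L ≃ₐ[ℚ_[p]] L, (X - C ((τ x : L) : PadicAlgCl p)) := by
  classical
  haveI : Normal ℚ_[p] L := hN
  haveI : IsGalois ℚ_[p] L := ⟨⟩
  have hint : IsIntegral ℚ_[p] x := (Algebra.IsAlgebraic.isAlgebraic x).isIntegral
  set P := minpoly ℚ_[p] x with hP
  set R : (PadicAlgCl p)[X] := ∏ τ : L ≃ₐ[ℚ_[p]] L, (X - C ((τ x : L) : PadicAlgCl p)) with hR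
  have hRmonic : R.Monic := monic_prod_of_monic _ _ fun τ _ => monic_X_sub_C _
  have hPmonic : (P.map (algebraMap ℚ_[p] (PadicAlgCl p))).Monic := (minpoly.monic hint).map _
  have hdiv : R ∣ P.map (algebraMap ℚ_[p] (PadicAlgCl p)) := by
    refine Finset.prod_dvd_of_coprime ?_ ?_
    · intro σ _ τ _ hστ
      exact pairwise_coprime_X_sub_C (map_goodGen_injective h) hστ
    · intro τ _
      rw [dvd_iff_isRoot, IsRoot.def, eval_map, ← aeval_def]
      have h1 : ((τ x : L) : PadicAlgCl p) = (L.val.comp (τ : L →ₐ[ℚ_[p]] L)) x := rfl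
      rw [h1, aeval_algHom_apply, hP, minpoly.aeval, map_zero]
  have hdegR : R.natDegree = finrank ℚ_[p] L := by
    rw [hR, natDegree_prod_of_monic _ _ fun τ _ => monic_X_sub_C _]
    simp only [natDegree_X_sub_C, Finset.sum_const, Finset.card_univ, smul_eq_mul, mul_one]
    rw [← Nat.card_eq_fintype_card]
    exact IsGalois.card_aut_eq_finrank ℚ_[p] L
  have hdegP : (P.map (algebraMap ℚ_[p] (PadicAlgCl p))).natDegree ≤ R.natDegree := by
    rw [natDegree_map, hdegR]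
    exact minpoly.natDegree_le x
  exact eq_of_monic_of_dvd_of_natDegree_le hRmonic hPmonic hdiv hdegP

/-- Existence of the minimal polynomial over `ℤ_p` of a good generator. -/
theorem exists_isMinZ (hN : Normal ℚ_[p] L) {x π : L} {q : ℕ} (h : IsGoodGen L x π q) :
    ∃ Pz : ℤ_[p][X], IsMinZ L x Pz := by
  classical
  have hint : IsIntegral ℚ_[p] x := (Algebra.IsAlgebraic.isAlgebraic x).isIntegral
  have hprod := minpoly_map_eq_prod hN h
  set P := minpoly ℚ_[p] x with hP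
  -- the coefficients of `P` are integral
  have hcoeff : ∀ n, ‖P.coeff n‖ ≤ 1 := by
    intro n
    have h1 : ‖(P.map (algebraMap ℚ_[p] (PadicAlgCl p))).coeff n‖ ≤ 1 := by
      rw [hprod]
      have h2 : (∏ τ : L ≃ₐ[ℚ_[p]] L, (X - C ((τ x : L) : PadicAlgCl p)))
          = (∏ τ : L ≃ₐ[ℚ_[p]] L, (X - C (τ x))).map (algebraMap L (PadicAlgCl p)) := by
        rw [Polynomial.map_prod]
        refine Finset.prod_congr rfl fun τ _ => ?_
        simp
      rw [h2, coeff_map]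
      exact norm_coeff_prod_X_sub_C_le (L := L) Finset.univ (fun τ : L ≃ₐ[ℚ_[p]] L => τ x)
        (fun τ _ => by
          have : ‖((τ x : L) : PadicAlgCl p)‖ = ‖(x : PadicAlgCl p)‖ := norm_algEquiv τ x
          exact this.le.trans h.1) n
    rwa [coeff_map, PadicAlgCl.norm_extends] at h1
  have hlift : P ∈ lifts (PadicInt.Coe.ringHom (p := p)) := by
    rw [lifts_iff_coeff_lifts]
    intro n
    exact ⟨⟨P.coeff n, hcoeff n⟩, rfl⟩
  obtain ⟨Pz, hmap, hdeg, hmonic⟩ :=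
    lifts_and_natDegree_eq_and_monic hlift (minpoly.monic hint)
  have hdegP : P.natDegree = finrank ℚ_[p] L := by
    have h1 : (P.map (algebraMap ℚ_[p] (PadicAlgCl p))).natDegree = finrank ℚ_[p] L := by
      rw [hprod, natDegree_prod_of_monic _ _ fun τ _ => monic_X_sub_C _]
      simp only [natDegree_X_sub_C, Finset.sum_const, Finset.card_univ, smul_eq_mul, mul_one]
      haveI : Normal ℚ_[p] L := hN
      haveI : IsGalois ℚ_[p] L := ⟨⟩
      rw [← Nat.card_eq_fintype_card]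
      exact IsGalois.card_aut_eq_finrank ℚ_[p] L
    rwa [natDegree_map] at h1
  refine ⟨Pz, hmonic, hdeg.trans hdegP, hmap, ?_⟩
  rw [← hprod, ← hmap, Polynomial.map_map]
  rfl

namespace IsMinZ

variable {x : L} {Pz : ℤ_[p][X]}

theorem eval₂_eq_prod (hP : IsMinZ L x Pz) (y : PadicAlgCl p) :
    Pz.eval₂ (phiZ p) y = ∏ τ : L ≃ₐ[ℚ_[p]] L, (y - ((τ x : L) : PadicAlgCl p)) := by
  rw [eval₂_eq_eval_map, hP.map_phiZ, eval_prod]
  simp

theorem eval₂_self (hP : IsMinZ L x Pz) : Pz.eval₂ (phiZ p) (x : PadicAlgCl p) = 0 := by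
  rw [hP.eval₂_eq_prod]
  refine Finset.prod_eq_zero (Finset.mem_univ (1 : L ≃ₐ[ℚ_[p]] L)) ?_
  simp

theorem norm_eval₂ (hP : IsMinZ L x Pz) (y : PadicAlgCl p) :
    ‖Pz.eval₂ (phiZ p) y‖ = ∏ τ : L ≃ₐ[ℚ_[p]] L, ‖y - ((τ x : L) : PadicAlgCl p)‖ := by
  rw [hP.eval₂_eq_prod, norm_prod]

theorem natDegree_pos (hP : IsMinZ L x Pz) : 0 < Pz.natDegree := by
  rw [hP.natDegree_eq]; exact finrank_pos

theorem ne_one (hP : IsMinZ L x Pz) : Pz ≠ 1 := by
  intro h
  have := hP.natDegree_pos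
  rw [h, natDegree_one] at this
  exact lt_irrefl _ this

/-- `g(x) = 0` implies `Pz ∣ g` in `ℤ_p[X]`. -/
theorem dvd_of_eval₂_eq_zero (hP : IsMinZ L x Pz) (g : ℤ_[p][X])
    (hg : g.eval₂ (phiZ p) (x : PadicAlgCl p) = 0) : Pz ∣ g := by
  rw [← modByMonic_eq_zero_iff_dvd hP.monic]
  by_contra hne
  have hr : (g %ₘ Pz).eval₂ (phiZ p) (x : PadicAlgCl p) = 0 := by
    rw [eval₂_modByMonic_eq_self_of_root hP.eval₂_self]; exact hg
  have hinj : Function.Injective (PadicInt.Coe.ringHom (p := p)) := Subtype.val_injective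
  have h1 : (g %ₘ Pz).map PadicInt.Coe.ringHom ≠ 0 := (Polynomial.map_ne_zero_iff hinj).mpr hne
  have h2 : aeval (x : PadicAlgCl p) ((g %ₘ Pz).map PadicInt.Coe.ringHom) = 0 := by
    rw [aeval_def, eval₂_map]
    exact hr
  have h3 := minpoly.degree_le_of_ne_zero ℚ_[p] (x : PadicAlgCl p) h1 h2
  have h4 : minpoly ℚ_[p] (x : PadicAlgCl p) = minpoly ℚ_[p] x :=
    minpoly.algebraMap_eq (algebraMap L (PadicAlgCl p)).injective x
  rw [h4, ← hP.map_eq, hP.monic.degree_map] at h3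
  have h5 : ((g %ₘ Pz).map PadicInt.Coe.ringHom).degree ≤ (g %ₘ Pz).degree := degree_map_le
  have h6 := degree_modByMonic_lt g hP.monic
  exact absurd (h3.trans h5) (not_le.mpr h6)

end IsMinZ

omit [FiniteDimensional ℚ_[p] L] in
/-- Successive approximation: every integer of `L` is congruent to a polynomial in a good
generator modulo any power of the uniformizer. -/
theorem exists_poly_approx {x π : L} {q : ℕ} (h : IsGoodGen L x π q) (k : ℕ) :
    ∀ a : L, ‖a‖ ≤ 1 →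
      ∃ g : ℤ_[p][X], ‖(a : PadicAlgCl p) - g.eval₂ (phiZ p) (x : PadicAlgCl p)‖ ≤ ‖π‖ ^ k := by
  obtain ⟨hx, hπ0, hπ1, hπmax, hxq, hres⟩ := h
  set ϖ : L := x ^ q - x with hϖ
  have hϖn : ‖ϖ‖ = ‖π‖ := hxq
  have hϖ0 : ϖ ≠ 0 := by
    intro h0
    rw [h0, norm_zero] at hϖn
    exact hπ0.ne hϖn
  induction k with
  | zero =>
    intro a ha
    refine ⟨0, ?_⟩
    rw [eval₂_zero, sub_zero, pow_zero]
    exact ha
  | succ k ih =>
    -- the step for multiples of `ϖ`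
    have hmul : ∀ b : L, ‖b‖ ≤ ‖π‖ → ∃ g : ℤ_[p][X],
        ‖(b : PadicAlgCl p) - g.eval₂ (phiZ p) (x : PadicAlgCl p)‖ ≤ ‖π‖ ^ (k + 1) := by
      intro b hb
      set c : L := b / ϖ with hc
      have hbc : b = ϖ * c := by rw [hc]; field_simp
      have hc1 : ‖c‖ ≤ 1 := by
        rw [hc, norm_div, hϖn]
        exact div_le_one_of_le₀ hb (norm_nonneg _)
      obtain ⟨g₁, hg₁⟩ := ih c hc1
      refine ⟨(X ^ q - X) * g₁, ?_⟩
      have h1 : (b : PadicAlgCl p) - ((X ^ q - X) * g₁).eval₂ (phiZ p) (x : PadicAlgCl p)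
          = (ϖ : PadicAlgCl p) * ((c : PadicAlgCl p) - g₁.eval₂ (phiZ p) (x : PadicAlgCl p)) := by
        rw [eval₂_mul, eval₂_sub, eval₂_pow, eval₂_X, hbc, hϖ]
        push_cast
        ring
      rw [h1, norm_mul, pow_succ']
      have h2 : ‖(ϖ : PadicAlgCl p)‖ = ‖π‖ := hϖn
      rw [h2]
      exact mul_le_mul_of_nonneg_left hg₁ hπ0.le
    intro a ha
    rcases hres a ha with h1 | ⟨m, hm⟩
    · exact hmul a h1
    · obtain ⟨g, hg⟩ := hmul (a - x ^ m) hm
      refine ⟨X ^ m + g, ?_⟩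
      have h2 : (a : PadicAlgCl p) - (X ^ m + g).eval₂ (phiZ p) (x : PadicAlgCl p)
          = ((a - x ^ m : L) : PadicAlgCl p) - g.eval₂ (phiZ p) (x : PadicAlgCl p) := by
        rw [eval₂_add, eval₂_pow, eval₂_X]
        push_cast
        ring
      rw [h2]
      exact hg

/-- **Monogenicity**: every integer of `L` is a polynomial with `ℤ_p`-coefficients in a good
generator. -/
theorem exists_poly_eq {x π : L} {q : ℕ} (h : IsGoodGen L x π q) {Pz : ℤ_[p][X]}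
    (hP : IsMinZ L x Pz) (a : L) (ha : ‖a‖ ≤ 1) :
    ∃ g : ℤ_[p][X], g.eval₂ (phiZ p) (x : PadicAlgCl p) = (a : PadicAlgCl p) := by
  set n := Pz.natDegree with hn
  set S : Set (PadicAlgCl p) :=
    Set.range fun c : Fin n → ℤ_[p] => ∑ i : Fin n, phiZ p (c i) * (x : PadicAlgCl p) ^ (i : ℕ)
    with hS
  have hclosed : IsClosed S := (isCompact_range_evZ (x : PadicAlgCl p) n).isClosed
  have hmem : (a : PadicAlgCl p) ∈ closure S := by
    rw [Metric.mem_closure_iff]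
    intro ε hε
    obtain ⟨k, hk⟩ := exists_pow_lt_of_lt_one hε h.2.2.1
    obtain ⟨g, hg⟩ := exists_poly_approx h k a ha
    have hdeg : (g %ₘ Pz).natDegree < n := natDegree_modByMonic_lt g hP.monic hP.ne_one
    refine ⟨(g %ₘ Pz).eval₂ (phiZ p) (x : PadicAlgCl p), ?_, ?_⟩
    · rw [evZ_eq_sum_fin _ _ hdeg]
      exact ⟨fun i => (g %ₘ Pz).coeff i, rfl⟩
    · rw [eval₂_modByMonic_eq_self_of_root hP.eval₂_self, dist_eq_norm]
      exact hg.trans_lt hk
  rw [hclosed.closure_eq] at hmem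
  obtain ⟨c, hc⟩ := hmem
  refine ⟨∑ i : Fin n, C (c i) * X ^ (i : ℕ), ?_⟩
  rw [← hc, eval₂_finsetSum]
  refine Finset.sum_congr rfl fun i _ => ?_
  rw [eval₂_mul, eval₂_C, eval₂_pow, eval₂_X]

end Fermat.Agent.S56.FL.H15

end
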