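import Mathlib
import Fermat.Agent.S56.FL.LF.H15_Mono

set_option autoImplicit false
set_option linter.style.haveILetI false

/-!
# LOC-p-FL, LF basics (helper15), part 7: inertia

* `IsGoodGen.map`, `IsGoodGen.of_close` : conjugates and small perturbations of a good generator
  are good generators.
* `norm_w_sub`          : `‖w(y) - w(x)‖ = ‖y - x‖` for `w = X^q - X`, `‖y - x‖ < 1`.
* `norm_sub_map_eq_max` : `‖y - τ x‖ = max ‖y - x‖ (depth τ)` if `x` is a closest conjugate of `y`.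
* `depth_le_pow_succ`   : discreteness of the depth.
* `exists_ramIdx`       : `‖π‖^e = p⁻¹`.
* `card_inertia_le`     : `#{τ : depth τ < 1} ≤ e`.
* `dvd_orderOf_of_depth_lt` : an element `σ ≠ 1` of depth `< ‖π‖` has order divisible by `p`.
-/

noncomputable section

namespace Fermat.Agent.S56.FL.H15

open scoped NNReal
open Fermat.Agent.S56.FL Module Polynomial

variable {p : ℕ} [Fact p.Prime]

/-- `‖w(y) - w(x)‖ = ‖y - x‖` for `w = X^q - X`, `‖q‖ < 1`, `‖y - x‖ < 1`. -/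
theorem norm_w_sub {x y : PadicAlgCl p} {q : ℕ} (hq : ‖(q : PadicAlgCl p)‖ < 1)
    (hx : ‖x‖ ≤ 1) (hxy : ‖y - x‖ < 1) :
    ‖(y ^ q - y) - (x ^ q - x)‖ = ‖y - x‖ := by
  obtain ⟨t, rfl⟩ : ∃ t, y = x + t := ⟨y - x, by ring⟩
  have ht : x + t - x = t := by ring
  rw [ht] at hxy ⊢
  rcases eq_or_ne t 0 with rfl | hne
  · simp
  have ht0 : 0 < ‖t‖ := norm_pos_iff.mpr hne
  let R : Subring (PadicAlgCl p) := intRing p (⊤ : IntermediateField ℚ_[p] (PadicAlgCl p))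
  let X0 : R := ⟨x, ⟨IntermediateField.mem_top, hx⟩⟩
  let T : R := ⟨t, ⟨IntermediateField.mem_top, hxy.le⟩⟩
  let f : R[X] := X ^ q - X
  obtain ⟨k, hk⟩ := f.binomExpansion X0 T
  have hk' : (x + t) ^ q - (x + t)
      = (x ^ q - x) + ((q : PadicAlgCl p) * x ^ (q - 1) - 1) * t + (k : PadicAlgCl p) * t ^ 2 := by
    have := congrArg (fun z : R => (z : PadicAlgCl p)) hk
    simp only [f, eval_sub, eval_pow, eval_X, derivative_sub, derivative_X_pow, derivative_X,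
      eval_mul, eval_one, eval_natCast, map_natCast] at this
    simpa [X0, T] using this
  have hk1 : ‖(k : PadicAlgCl p)‖ ≤ 1 := k.2.2
  have h1 : (x + t) ^ q - (x + t) - (x ^ q - x)
      = ((q : PadicAlgCl p) * x ^ (q - 1) - 1) * t + (k : PadicAlgCl p) * t ^ 2 := by
    rw [hk']; ring
  rw [h1]
  have h2 : ‖(q : PadicAlgCl p) * x ^ (q - 1)‖ < 1 := by
    rw [norm_mul, norm_pow]
    calc ‖(q : PadicAlgCl p)‖ * ‖x‖ ^ (q - 1) ≤ ‖(q : PadicAlgCl p)‖ * 1 :=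
          mul_le_mul_of_nonneg_left (pow_le_one₀ (norm_nonneg _) hx) (norm_nonneg _)
      _ = ‖(q : PadicAlgCl p)‖ := mul_one _
      _ < 1 := hq
  have h3 : ‖(q : PadicAlgCl p) * x ^ (q - 1) - 1‖ = 1 := by
    rw [← norm_neg, neg_sub]
    have : ‖(1 : PadicAlgCl p) - (q : PadicAlgCl p) * x ^ (q - 1)‖ = ‖(1 : PadicAlgCl p)‖ :=
      norm_sub_eq_left (by rw [norm_one]; exact h2)
    rw [this, norm_one]
  have h4 : ‖((q : PadicAlgCl p) * x ^ (q - 1) - 1) * t‖ = ‖t‖ := by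
    rw [norm_mul, h3, one_mul]
  have h5 : ‖(k : PadicAlgCl p) * t ^ 2‖ < ‖t‖ := by
    rw [norm_mul, norm_pow]
    calc ‖(k : PadicAlgCl p)‖ * ‖t‖ ^ 2 ≤ 1 * ‖t‖ ^ 2 :=
          mul_le_mul_of_nonneg_right hk1 (by positivity)
      _ = ‖t‖ * ‖t‖ := by ring
      _ < 1 * ‖t‖ := mul_lt_mul_of_pos_right hxy ht0
      _ = ‖t‖ := one_mul _
  rw [norm_add_eq_left (by rw [h4]; exact h5), h4]

/-- `‖w(y) - w(x)‖ ≤ ‖y - x‖` for integers `x, y`. -/
theorem norm_w_sub_le {x y : PadicAlgCl p} (q : ℕ) (hx : ‖x‖ ≤ 1) (hy : ‖y‖ ≤ 1) :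
    ‖(y ^ q - y) - (x ^ q - x)‖ ≤ ‖y - x‖ := by
  have h : (y ^ q - y) - (x ^ q - x) = (y ^ q - x ^ q) - (y - x) := by ring
  rw [h]
  exact (norm_sub_le_max_algCl _ _).trans (max_le (norm_pow_sub_pow_le_algCl hy hx q) le_rfl)

variable {L : IntermediateField ℚ_[p] (PadicAlgCl p)}

/-- A conjugate of a good generator is a good generator. -/
theorem IsGoodGen.map {x π : L} {q : ℕ} (h : IsGoodGen L x π q) (τ : L ≃ₐ[ℚ_[p]] L) :
    IsGoodGen L (τ x) π q := by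
  obtain ⟨hx, hπ0, hπ1, hπmax, hxq, hres⟩ := h
  have hτ : ∀ a : L, ‖τ a‖ = ‖a‖ := fun a => norm_algEquiv τ a
  have hτs : ∀ a : L, ‖τ.symm a‖ = ‖a‖ := fun a => norm_algEquiv τ.symm a
  refine ⟨by rw [hτ]; exact hx, hπ0, hπ1, hπmax, ?_, ?_⟩
  · have : (τ x) ^ q - τ x = τ (x ^ q - x) := by simp
    rw [this, hτ, hxq]
  · intro a ha
    rcases hres (τ.symm a) (by rw [hτs]; exact ha) with h1 | ⟨m, hm⟩
    · left; rwa [hτs] at h1
    · right
      refine ⟨m, ?_⟩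
      have : a - (τ x) ^ m = τ (τ.symm a - x ^ m) := by simp
      rw [this, hτ]
      exact hm

/-- An integer close to a good generator is a good generator. -/
theorem IsGoodGen.of_close {x π : L} {q : ℕ} (h : IsGoodGen L x π q) {x' : L}
    (hx' : ‖x' - x‖ < ‖π‖) : IsGoodGen L x' π q := by
  obtain ⟨hx, hπ0, hπ1, hπmax, hxq, hres⟩ := h
  have hx'1 : ‖x'‖ ≤ 1 := by
    have : x' = (x' - x) + x := by ring
    rw [this]
    exact (IsUltrametricDist.norm_add_le_max _ _).trans (max_le (hx'.le.trans hπ1.le) hx)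
  refine ⟨hx'1, hπ0, hπ1, hπmax, ?_, ?_⟩
  · have h1 : x' ^ q - x' = (x ^ q - x) + ((x' ^ q - x ^ q) + (-(x' - x))) := by ring
    rw [h1]
    have h2 : ‖(x' ^ q - x ^ q) + (-(x' - x))‖ < ‖x ^ q - x‖ := by
      rw [hxq]
      refine lt_of_le_of_lt ((IsUltrametricDist.norm_add_le_max _ _).trans (max_le ?_ ?_)) hx'
      · exact norm_pow_sub_pow_le hx'1 hx q
      · rw [norm_neg]
    rw [IsUltrametricDist.norm_add_eq_max_of_norm_ne_norm h2.ne', max_eq_left h2.le, hxq]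
  · intro a ha
    rcases hres a ha with h1 | ⟨m, hm⟩
    · exact Or.inl h1
    · right
      refine ⟨m, ?_⟩
      have h1 : a - x' ^ m = (a - x ^ m) + (x ^ m - x' ^ m) := by ring
      rw [h1]
      refine (IsUltrametricDist.norm_add_le_max _ _).trans (max_le hm ?_)
      refine (norm_pow_sub_pow_le hx hx'1 m).trans ?_
      rw [norm_sub_rev]
      exact hx'.le

/-- If `x` is a closest conjugate of `y`, then `‖y - τ x‖ = max ‖y - x‖ (depth τ)`. -/
theorem norm_sub_map_eq_max {x π : L} {q : ℕ} (h : IsGoodGen L x π q) {y : PadicAlgCl p}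
    (hy : ∀ τ : L ≃ₐ[ℚ_[p]] L, ‖y - (x : PadicAlgCl p)‖ ≤ ‖y - ((τ x : L) : PadicAlgCl p)‖)
    (τ : L ≃ₐ[ℚ_[p]] L) :
    ‖y - ((τ x : L) : PadicAlgCl p)‖ = max ‖y - (x : PadicAlgCl p)‖ (depth p L τ) := by
  have hd : depth p L τ = ‖(x : PadicAlgCl p) - ((τ x : L) : PadicAlgCl p)‖ := by
    rw [depth_eq_of_goodGen h τ, norm_sub_rev]
    rfl
  rw [hd]
  have h1 : y - ((τ x : L) : PadicAlgCl p)
      = (y - (x : PadicAlgCl p)) + ((x : PadicAlgCl p) - ((τ x : L) : PadicAlgCl p)) := by ring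
  by_cases hne : ‖y - (x : PadicAlgCl p)‖ = ‖(x : PadicAlgCl p) - ((τ x : L) : PadicAlgCl p)‖
  · refine le_antisymm ?_ ?_
    · rw [h1]; exact IsUltrametricDist.norm_add_le_max _ _
    · rw [← hne, max_self]; exact hy τ
  · rw [h1, IsUltrametricDist.norm_add_eq_max_of_norm_ne_norm hne]

/-- Discreteness of the depth. -/
theorem depth_le_pow_succ {x π : L} {q : ℕ} (h : IsGoodGen L x π q) (τ : L ≃ₐ[ℚ_[p]] L)
    (j : ℕ) (hlt : depth p L τ < ‖π‖ ^ j) : depth p L τ ≤ ‖π‖ ^ (j + 1) := by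
  obtain ⟨hx, hπ0, hπ1, hπmax, hxq, hres⟩ := id h
  rw [depth_eq_of_goodGen h τ] at hlt ⊢
  set a : L := τ x - x with ha
  have h1 : ‖a / π ^ j‖ < 1 := by
    rw [norm_div, norm_pow, div_lt_one (pow_pos hπ0 j)]
    exact hlt
  have h2 := hπmax _ h1
  rw [norm_div, norm_pow, div_le_iff₀ (pow_pos hπ0 j), ← pow_succ'] at h2
  exact h2

/-- The depth of `τ ≠ 1` is a power of `‖π‖`. -/
theorem depth_eq_pow {x π : L} {q : ℕ} (h : IsGoodGen L x π q) {τ : L ≃ₐ[ℚ_[p]] L}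
    (hτ : τ ≠ 1) : ∃ i : ℕ, depth p L τ = ‖π‖ ^ i := by
  obtain ⟨hx, hπ0, hπ1, hπmax, hxq, hres⟩ := id h
  rw [depth_eq_of_goodGen h τ]
  have hne : τ x - x ≠ 0 := by
    intro h0
    exact hτ (eq_one_of_map_goodGen h (sub_eq_zero.mp h0))
  refine exists_norm_eq_pow L hπ0 hπ1 hπmax _ hne ?_
  have := norm_sub_le_depth τ hx
  exact this.trans (depth_le_one L τ)

theorem depth_pos {τ : L ≃ₐ[ℚ_[p]] L} (hτ : τ ≠ 1) : 0 < depth p L τ := by
  refine lt_of_le_of_ne (depth_nonneg L τ) fun h0 => hτ (eq_one_of_depth_eq_zero h0.symm)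

theorem depth_pow_le (σ : L ≃ₐ[ℚ_[p]] L) (i : ℕ) : depth p L (σ ^ i) ≤ depth p L σ := by
  induction i with
  | zero => rw [pow_zero, depth_one]; exact depth_nonneg L σ
  | succ i ih =>
    rw [pow_succ]
    exact (depth_mul_le L _ _).trans (max_le ih le_rfl)

/-- The absolute ramification index. -/
theorem exists_ramIdx {π : L} (hπ0 : 0 < ‖π‖) (hπ1 : ‖π‖ < 1)
    (hmax : ∀ a : L, ‖a‖ < 1 → ‖a‖ ≤ ‖π‖) : ∃ e : ℕ, 0 < e ∧ ‖π‖ ^ e = (p : ℝ)⁻¹ := by
  have hp : p.Prime := Fact.out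
  have hpn : ‖(p : L)‖ = (p : ℝ)⁻¹ := by
    have : ‖((p : L) : PadicAlgCl p)‖ = (p : ℝ)⁻¹ := by push_cast; exact norm_p_algCl
    exact this
  have hplt : (p : ℝ)⁻¹ < 1 := inv_lt_one_of_one_lt₀ one_lt_p_real
  have hp0 : (p : L) ≠ 0 := by
    intro h0
    rw [h0, norm_zero] at hpn
    have : (0 : ℝ) < (p : ℝ)⁻¹ := inv_pos.mpr p_pos_real
    linarith
  obtain ⟨e, he⟩ := exists_norm_eq_pow L hπ0 hπ1 hmax (p : L) hp0 (by rw [hpn]; exact hplt.le)
  refine ⟨e, ?_, by rw [← he, hpn]⟩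
  rcases Nat.eq_zero_or_pos e with h0 | h0
  · rw [h0, pow_zero, hpn] at he
    exact absurd he hplt.ne
  · exact h0

variable [FiniteDimensional ℚ_[p] L]

open Classical in
/-- **The inertia group has at most `e` elements.** -/
theorem card_inertia_le {x π : L} {q : ℕ} (h : IsGoodGen L x π q)
    (hq : ‖(q : PadicAlgCl p)‖ < 1) {Pz : ℤ_[p][X]} (hP : IsMinZ L x Pz) {e : ℕ}
    (he : ‖π‖ ^ e = (p : ℝ)⁻¹) :
    (Finset.univ.filter fun τ : L ≃ₐ[ℚ_[p]] L => depth p L τ < 1).card ≤ e := by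
  obtain ⟨hx, hπ0, hπ1, hπmax, hxq, hres⟩ := id h
  set r : ℝ := ‖π‖ with hr
  have hx' : ‖(x : PadicAlgCl p)‖ ≤ 1 := hx
  -- a square root of `π`
  obtain ⟨t, ht⟩ := IsAlgClosed.exists_pow_nat_eq ((π : L) : PadicAlgCl p) (n := 2) (by norm_num)
  set ρ : ℝ := ‖t‖ with hρ
  have hρ2 : ρ ^ 2 = r := by rw [hρ, ← norm_pow, ht]; rfl
  have hρ0 : 0 < ρ := by
    rcases (norm_nonneg t).lt_or_eq with h0 | h0
    · exact h0
    · rw [hρ, ← h0] at hρ2
      have : r = 0 := by rw [← hρ2]; norm_num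
      rw [this] at hπ0
      exact absurd hπ0 (lt_irrefl _)
  have hρ1 : ρ < 1 := by
    by_contra hcon
    have : 1 ≤ ρ ^ 2 := one_le_pow₀ (not_lt.mp hcon)
    rw [hρ2] at this
    exact absurd hπ1 (not_lt.mpr this)
  have hrρ : r < ρ := by
    rw [← hρ2]
    calc ρ ^ 2 = ρ * ρ := by ring
      _ < 1 * ρ := mul_lt_mul_of_pos_right hρ1 hρ0
      _ = ρ := one_mul _
  set y : PadicAlgCl p := (x : PadicAlgCl p) + t with hy
  have hyx : y - (x : PadicAlgCl p) = t := by rw [hy]; ring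
  have hy1 : ‖y‖ ≤ 1 :=
    (IsUltrametricDist.norm_add_le_max _ _).trans (max_le hx' hρ1.le)
  -- the distances to the conjugates
  have hdist : ∀ τ : L ≃ₐ[ℚ_[p]] L, ‖y - ((τ x : L) : PadicAlgCl p)‖
      = if depth p L τ < 1 then ρ else 1 := by
    intro τ
    have hd : depth p L τ = ‖(x : PadicAlgCl p) - ((τ x : L) : PadicAlgCl p)‖ := by
      rw [depth_eq_of_goodGen h τ, norm_sub_rev]
      rfl
    have h1 : y - ((τ x : L) : PadicAlgCl p)
        = t + ((x : PadicAlgCl p) - ((τ x : L) : PadicAlgCl p)) := by rw [hy]; ring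
    split_ifs with hlt
    · have h2 : depth p L τ ≤ r := by
        have := depth_le_pow_succ h τ 0 (by rw [pow_zero]; exact hlt)
        rwa [zero_add, pow_one] at this
      rw [h1]
      exact norm_add_eq_left (by rw [← hd]; exact h2.trans_lt hrρ)
    · have h2 : depth p L τ = 1 := le_antisymm (depth_le_one L τ) (not_lt.mp hlt)
      rw [h1, norm_add_eq_right (by rw [← hd, h2]; exact hρ1), ← hd, h2]
  have hPy : ‖Pz.eval₂ (phiZ p) y‖
      = ρ ^ (Finset.univ.filter fun τ : L ≃ₐ[ℚ_[p]] L => depth p L τ < 1).card := by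
    rw [hP.norm_eval₂]
    simp only [hdist]
    rw [Finset.prod_ite, Finset.prod_const, Finset.prod_const_one, mul_one]
  -- monogenicity applied to `ϖ^e / p`
  set ϖ : L := x ^ q - x with hϖ
  have hϖn : ‖ϖ‖ = r := hxq
  have hpn : ‖(p : L)‖ = (p : ℝ)⁻¹ := by
    have : ‖((p : L) : PadicAlgCl p)‖ = (p : ℝ)⁻¹ := by push_cast; exact norm_p_algCl
    exact this
  have hp0 : (p : L) ≠ 0 := by
    intro h0
    rw [h0, norm_zero] at hpn
    have : (0 : ℝ) < (p : ℝ)⁻¹ := inv_pos.mpr p_pos_real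
    linarith
  have ha1 : ‖ϖ ^ e / (p : L)‖ ≤ 1 := by
    rw [norm_div, norm_pow, hϖn, he, hpn, div_self (inv_pos.mpr p_pos_real).ne']
  obtain ⟨g, hg⟩ := exists_poly_eq h hP (ϖ ^ e / (p : L)) ha1
  have hG : ((X ^ q - X) ^ e - C (p : ℤ_[p]) * g).eval₂ (phiZ p) (x : PadicAlgCl p) = 0 := by
    rw [eval₂_sub, eval₂_mul, eval₂_C, eval₂_pow, eval₂_sub, eval₂_pow, eval₂_X, hg]
    have h1 : phiZ p (p : ℤ_[p]) = ((p : L) : PadicAlgCl p) := by
      rw [map_natCast]; push_cast; rfl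
    have h2 : ((x : PadicAlgCl p) ^ q - (x : PadicAlgCl p)) = (ϖ : PadicAlgCl p) := by
      rw [hϖ]; push_cast; rfl
    rw [h1, h2]
    have h3 : ((p : L) : PadicAlgCl p) * ((ϖ ^ e / (p : L) : L) : PadicAlgCl p)
        = ((ϖ ^ e : L) : PadicAlgCl p) := by
      rw [← IntermediateField.coe_mul]
      congr 1
      field_simp
    rw [h3]
    push_cast
    ring
  obtain ⟨hh, hhG⟩ := hP.dvd_of_eval₂_eq_zero _ hG
  have hev := congrArg (fun F : ℤ_[p][X] => F.eval₂ (phiZ p) y) hhG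
  simp only [eval₂_sub, eval₂_mul, eval₂_C, eval₂_pow, eval₂_X] at hev
  -- norms
  have hwy : ‖y ^ q - y‖ = ρ := by
    have h1 : ‖(y ^ q - y) - ((x : PadicAlgCl p) ^ q - (x : PadicAlgCl p))‖ = ρ := by
      rw [norm_w_sub hq hx' (by rw [hyx]; exact hρ1), hyx]
    have h2 : ‖((x : PadicAlgCl p) ^ q - (x : PadicAlgCl p))‖ = r := hϖn
    have h3 : y ^ q - y = ((y ^ q - y) - ((x : PadicAlgCl p) ^ q - (x : PadicAlgCl p)))
        + ((x : PadicAlgCl p) ^ q - (x : PadicAlgCl p)) := by ring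
    rw [h3, norm_add_eq_left (by rw [h1, h2]; exact hrρ), h1]
  have hpg : ‖phiZ p (p : ℤ_[p]) * g.eval₂ (phiZ p) y‖ < ρ ^ e := by
    rw [norm_mul, map_natCast, norm_p_algCl, ← he]
    have hepos : e ≠ 0 := by
      intro h0
      rw [h0, pow_zero] at he
      have : (p : ℝ)⁻¹ < 1 := inv_lt_one_of_one_lt₀ one_lt_p_real
      linarith
    calc r ^ e * ‖g.eval₂ (phiZ p) y‖ ≤ r ^ e * 1 :=
          mul_le_mul_of_nonneg_left (norm_evZ_le_one hy1 g) (by positivity)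
      _ = r ^ e := mul_one _
      _ < ρ ^ e := pow_lt_pow_left₀ hrρ hπ0.le hepos
  have hlhs : ‖(y ^ q - y) ^ e - phiZ p (p : ℤ_[p]) * g.eval₂ (phiZ p) y‖ = ρ ^ e := by
    rw [norm_sub_eq_left (by rw [norm_pow, hwy]; exact hpg), norm_pow, hwy]
  rw [hev, norm_mul, hPy] at hlhs
  have hle : ρ ^ e ≤ ρ ^ (Finset.univ.filter fun τ : L ≃ₐ[ℚ_[p]] L => depth p L τ < 1).card := by
    rw [← hlhs]
    calc ρ ^ (Finset.univ.filter fun τ : L ≃ₐ[ℚ_[p]] L => depth p L τ < 1).card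
          * ‖hh.eval₂ (phiZ p) y‖
        ≤ ρ ^ (Finset.univ.filter fun τ : L ≃ₐ[ℚ_[p]] L => depth p L τ < 1).card * 1 :=
          mul_le_mul_of_nonneg_left (norm_evZ_le_one hy1 hh) (by positivity)
      _ = _ := mul_one _
  exact (pow_le_pow_iff_right_of_lt_one₀ hρ0 hρ1).mp hle

/-- **Wild elements have order divisible by `p`**: an automorphism `σ ≠ 1` of depth `< ‖π‖`
has order divisible by `p`. -/
theorem dvd_orderOf_of_depth_lt {x π : L} {q : ℕ} (h : IsGoodGen L x π q)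
    {σ : L ≃ₐ[ℚ_[p]] L} (hσ : σ ≠ 1) (hd : depth p L σ < ‖π‖) : p ∣ orderOf σ := by
  by_contra hndvd
  obtain ⟨hx, hπ0, hπ1, hπmax, hxq, hres⟩ := id h
  set m := orderOf σ with hm
  have hmpos : 0 < m := orderOf_pos σ
  have hmn : ‖(m : L)‖ = 1 := by
    have : ‖((m : L) : PadicAlgCl p)‖ = 1 := by push_cast; exact norm_natCast_eq_one hndvd
    exact this
  have hm0 : (m : L) ≠ 0 := by
    intro h0
    rw [h0, norm_zero] at hmn
    exact zero_ne_one hmn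
  set S : L := ∑ i ∈ Finset.range m, (σ ^ i) x with hS
  set x' : L := (m : L)⁻¹ * S with hx'
  -- `σ` fixes `x'`
  have hσS : σ S = S := by
    rw [hS, map_sum]
    have h1 : ∀ i, σ ((σ ^ i) x) = (σ ^ (i + 1)) x := by
      intro i
      rw [pow_succ', AlgEquiv.mul_apply]
    simp only [h1]
    have h2 := Finset.sum_range_succ (fun i => (σ ^ i) x) m
    have h3 := Finset.sum_range_succ' (fun i => (σ ^ i) x) m
    rw [h2] at h3
    have h4 : (σ ^ m) x = (σ ^ 0) x := by rw [hm, pow_orderOf_eq_one, pow_zero]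
    rw [h4] at h3
    exact (add_right_cancel h3).symm
  have hσx' : σ x' = x' := by
    rw [hx', map_mul, hσS, map_inv₀, map_natCast]
  -- `x'` is close to `x`
  have hclose : ‖x' - x‖ < ‖π‖ := by
    have h1 : x' - x = (m : L)⁻¹ * ∑ i ∈ Finset.range m, ((σ ^ i) x - x) := by
      rw [Finset.sum_sub_distrib, Finset.sum_const, Finset.card_range, nsmul_eq_mul, mul_sub,
        ← hS, ← hx', inv_mul_cancel_left₀ hm0]
    rw [h1, norm_mul, norm_inv, hmn, inv_one, one_mul]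
    refine lt_of_le_of_lt ?_ hd
    refine IsUltrametricDist.norm_sum_le_of_forall_le_of_nonneg (depth_nonneg L σ) fun i _ => ?_
    have := norm_sub_le_depth (σ ^ i) hx
    exact this.trans (depth_pow_le σ i)
  have hgood' := h.of_close hclose
  exact hσ (eq_one_of_map_goodGen hgood' hσx')

end Fermat.Agent.S56.FL.H15

end
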