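import Mathlib
import Fermat.Agent.S56.FL.LF.H15_Inertia

set_option autoImplicit false
set_option linter.style.haveILetI false

/-!
# LOC-p-FL, LOCAL TAME (helper59), part 1: the ring of integers of a finite extension `L/ℚ_p`
is a discrete valuation ring with an action of `Gal(L/ℚ_p)`

* `isInvariantSubring_OL` : `OL L` is stable under `L ≃ₐ[ℚ_[p]] L`, which gives the
  `MulSemiringAction` on `OL L`.
* `isDVR_OL`              : `OL L` is a discrete valuation ring.
* `mem_inertia_iff`       : `(mL L).inertia Γ` is `depth < 1`.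
* `mem_mL_pow_iff`        : `(mL L) ^ j` is `‖·‖ ≤ ‖π‖ ^ j`.
-/

noncomputable section

namespace Fermat.Agent.S56.FL.H59

open scoped NNReal
open Fermat.Agent.S56.FL Fermat.Agent.S56.FL.H15 Module Polynomial

variable {p : ℕ} [Fact p.Prime]

variable (L : IntermediateField ℚ_[p] (PadicAlgCl p))

instance isInvariantSubring_OL : IsInvariantSubring (L ≃ₐ[ℚ_[p]] L) (OL L) where
  smul_mem σ x hx := by
    change ‖((σ x : L) : PadicAlgCl p)‖ ≤ 1
    rw [norm_algEquiv]
    exact hx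

theorem coe_smul_OL (σ : L ≃ₐ[ℚ_[p]] L) (a : OL L) : ((σ • a : OL L) : L) = σ (a : L) := rfl

instance faithfulSMul_OL : FaithfulSMul (L ≃ₐ[ℚ_[p]] L) (OL L) where
  eq_of_smul_eq_smul := by
    intro σ τ h
    apply AlgEquiv.ext
    intro a
    -- `a = b / p ^ n` with `b` integral
    have hp : p.Prime := Fact.out
    have hpn : ‖((p : L) : PadicAlgCl p)‖ < 1 := by
      have : ‖((p : L) : PadicAlgCl p)‖ = (p : ℝ)⁻¹ := by push_cast; exact norm_p_algCl
      rw [this]
      exact inv_lt_one_of_one_lt₀ one_lt_p_real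
    have hp0 : (p : L) ≠ 0 := by
      exact_mod_cast hp.ne_zero
    have hpp : 0 < ‖((p : L) : PadicAlgCl p)‖ := by
      rw [norm_pos_iff]
      exact_mod_cast hp.ne_zero
    obtain ⟨n, hn⟩ : ∃ n : ℕ, ‖((p : L) : PadicAlgCl p)‖ ^ n * ‖(a : PadicAlgCl p)‖ ≤ 1 := by
      rcases eq_or_ne a 0 with rfl | ha
      · exact ⟨0, by simp⟩
      have hapos : 0 < ‖(a : PadicAlgCl p)‖ := by
        rw [norm_pos_iff]
        exact_mod_cast ha
      obtain ⟨n, hn⟩ := exists_pow_lt_of_lt_one (inv_pos.mpr hapos) hpn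
      refine ⟨n, ?_⟩
      have := mul_le_mul_of_nonneg_right hn.le hapos.le
      rwa [inv_mul_cancel₀ hapos.ne'] at this
    have hb : (p : L) ^ n * a ∈ OL L := by
      change ‖(((p : L) ^ n * a : L) : PadicAlgCl p)‖ ≤ 1
      push_cast
      rw [norm_mul, norm_pow]
      have : ‖((p : L) : PadicAlgCl p)‖ = ‖(p : PadicAlgCl p)‖ := by push_cast; rfl
      rw [← this]
      exact hn
    have h1 := congrArg (fun b : OL L => (b : L)) (h ⟨(p : L) ^ n * a, hb⟩)
    simp only [coe_smul_OL, map_mul, map_pow, map_natCast] at h1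
    exact mul_left_cancel₀ (pow_ne_zero n hp0) h1

theorem stab_mL (σ : L ≃ₐ[ℚ_[p]] L) (a : OL L) : σ • a ∈ mL L ↔ a ∈ mL L := by
  rw [mem_mL, mem_mL, coe_smul_OL, norm_algEquiv]

theorem natCast_mem_mL : ((p : ℕ) : OL L) ∈ mL L := by
  rw [mem_mL]
  have : ‖((((p : ℕ) : OL L) : L) : PadicAlgCl p)‖ = (p : ℝ)⁻¹ := by
    push_cast; exact norm_p_algCl
  rw [this]
  exact inv_lt_one_of_one_lt₀ one_lt_p_real

theorem mL_ne_bot : mL L ≠ ⊥ := by
  intro h
  have h1 := natCast_mem_mL L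
  rw [h, Ideal.mem_bot] at h1
  have hp : p.Prime := Fact.out
  have h2 : ((((p : ℕ) : OL L) : L)) = 0 := by rw [h1]; rfl
  have h3 : (p : L) = 0 := by simpa using h2
  have : (p : L) ≠ 0 := by exact_mod_cast hp.ne_zero
  exact this h3

instance mL_isMaximal' : (mL L).IsMaximal := mL_isMaximal L

instance charP_residue : CharP (OL L ⧸ mL L) p := by
  have hp : p.Prime := Fact.out
  haveI : Nontrivial (OL L ⧸ mL L) := Ideal.Quotient.nontrivial_iff.mpr (mL_isMaximal L).ne_top
  rw [CharP.charP_iff_prime_eq_zero hp]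
  rw [← map_natCast (Ideal.Quotient.mk (mL L)), Ideal.Quotient.eq_zero_iff_mem]
  exact natCast_mem_mL L

variable [FiniteDimensional ℚ_[p] L]

instance finite_residue' : Finite (OL L ⧸ mL L) := finite_residue L

theorem hasFact_OL : IsDiscreteValuationRing.HasUnitMulPowIrreducibleFactorization (OL L) := by
  obtain ⟨π, hπ0, hπ1, hπmax⟩ := exists_uniformizer L
  have hπmem : π ∈ OL L := hπ1.le
  have hπne : π ≠ 0 := by
    intro h
    rw [h] at hπ0
    simp at hπ0
  -- units of `OL L` are the elements of norm one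
  have hunit : ∀ a : OL L, ‖((a : L) : PadicAlgCl p)‖ = 1 → IsUnit a := by
    intro a ha
    have ha0 : (a : L) ≠ 0 := by
      intro h
      rw [h] at ha
      simp at ha
    have hinv : ((a : L)⁻¹) ∈ OL L := by
      change ‖(((a : L)⁻¹ : L) : PadicAlgCl p)‖ ≤ 1
      push_cast
      rw [norm_inv, ha, inv_one]
    refine IsUnit.of_mul_eq_one (⟨(a : L)⁻¹, hinv⟩ : OL L) ?_
    apply Subtype.ext
    push_cast
    exact mul_inv_cancel₀ ha0
  have hunit' : ∀ a : OL L, IsUnit a → ‖((a : L) : PadicAlgCl p)‖ = 1 := by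
    intro a ha
    obtain ⟨b, hb⟩ := ha.exists_right_inv
    have h1 := congrArg (fun c : OL L => ‖((c : L) : PadicAlgCl p)‖) hb
    simp only [Subring.coe_mul, IntermediateField.coe_mul, norm_mul, Subring.coe_one,
      IntermediateField.coe_one, norm_one] at h1
    refine le_antisymm a.2 ?_
    by_contra hlt
    have hlt' := not_le.mp hlt
    have : ‖((a : L) : PadicAlgCl p)‖ * ‖((b : L) : PadicAlgCl p)‖ < 1 := by
      calc ‖((a : L) : PadicAlgCl p)‖ * ‖((b : L) : PadicAlgCl p)‖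
          ≤ ‖((a : L) : PadicAlgCl p)‖ * 1 :=
            mul_le_mul_of_nonneg_left b.2 (norm_nonneg _)
        _ = ‖((a : L) : PadicAlgCl p)‖ := mul_one _
        _ < 1 := hlt'
    rw [h1] at this
    exact lt_irrefl _ this
  refine ⟨⟨π, hπmem⟩, ?_, ?_⟩
  · rw [irreducible_iff]
    refine ⟨fun h => ?_, fun a b hab => ?_⟩
    · have := hunit' _ h
      simp only at this
      rw [this] at hπ1
      exact lt_irrefl _ hπ1
    · by_contra hcon
      rw [not_or] at hcon
      have ha : ‖((a : L) : PadicAlgCl p)‖ < 1 :=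
        lt_of_le_of_ne a.2 fun h => hcon.1 (hunit a h)
      have hb : ‖((b : L) : PadicAlgCl p)‖ < 1 :=
        lt_of_le_of_ne b.2 fun h => hcon.2 (hunit b h)
      have h1 := congrArg (fun c : OL L => ‖((c : L) : PadicAlgCl p)‖) hab
      simp only [Subring.coe_mul, IntermediateField.coe_mul, norm_mul] at h1
      have h2 : ‖((a : L) : PadicAlgCl p)‖ * ‖((b : L) : PadicAlgCl p)‖
          < ‖(π : PadicAlgCl p)‖ := by
        calc ‖((a : L) : PadicAlgCl p)‖ * ‖((b : L) : PadicAlgCl p)‖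
            ≤ ‖(π : PadicAlgCl p)‖ * ‖((b : L) : PadicAlgCl p)‖ :=
              mul_le_mul_of_nonneg_right (hπmax _ ha) (norm_nonneg _)
          _ < ‖(π : PadicAlgCl p)‖ * 1 := mul_lt_mul_of_pos_left hb hπ0
          _ = ‖(π : PadicAlgCl p)‖ := mul_one _
      rw [← h1] at h2
      exact lt_irrefl _ h2
  · intro a ha
    have ha0 : (a : L) ≠ 0 := fun h => ha (Subtype.ext h)
    obtain ⟨j, hj⟩ := exists_norm_eq_pow L hπ0 hπ1 hπmax (a : L) ha0 a.2
    have hu : (a : L) / π ^ j ∈ OL L := by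
      change ‖(((a : L) / π ^ j : L) : PadicAlgCl p)‖ ≤ 1
      push_cast
      rw [norm_div, norm_pow]
      have hj' : ‖((a : L) : PadicAlgCl p)‖ = ‖(π : PadicAlgCl p)‖ ^ j := hj
      rw [hj', div_self (pow_ne_zero j hπ0.ne')]
    have hun : ‖(((⟨(a : L) / π ^ j, hu⟩ : OL L) : L) : PadicAlgCl p)‖ = 1 := by
      push_cast
      rw [norm_div, norm_pow]
      have hj' : ‖((a : L) : PadicAlgCl p)‖ = ‖(π : PadicAlgCl p)‖ ^ j := hj
      rw [hj', div_self (pow_ne_zero j hπ0.ne')]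
    obtain ⟨u, hu'⟩ := hunit _ hun
    refine ⟨j, u, ?_⟩
    rw [hu']
    apply Subtype.ext
    push_cast
    field_simp

instance isDVR_OL : IsDiscreteValuationRing (OL L) :=
  IsDiscreteValuationRing.ofHasUnitMulPowIrreducibleFactorization (hasFact_OL L)

/-- The inertia group of `mL L` is `depth < 1`. -/
theorem mem_inertia_iff (σ : L ≃ₐ[ℚ_[p]] L) :
    σ ∈ (mL L).inertia (L ≃ₐ[ℚ_[p]] L) ↔ depth p L σ < 1 := by
  obtain ⟨x, π, q, h⟩ := exists_goodGen L
  rw [depth_eq_of_goodGen h σ]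
  constructor
  · intro hσ
    have h1 : σ • (⟨x, h.1⟩ : OL L) - ⟨x, h.1⟩ ∈ mL L := hσ ⟨x, h.1⟩
    rw [mem_mL] at h1
    exact h1
  · intro hσ a
    change σ • a - a ∈ mL L
    rw [mem_mL]
    exact lt_of_le_of_lt (norm_map_sub_le_of_goodGen h σ (a : L) a.2) hσ

end Fermat.Agent.S56.FL.H59

end
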