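import Mathlib
import Fermat.Agent.S56.FL.LF.H59_LocTameRing
import Fermat.Agent.S56.H9_TameChar
import Fermat.Agent.S56.H9_Frob

set_option autoImplicit false
set_option linter.style.haveILetI false
set_option linter.unusedSectionVars false

/-!
# LOC-p-FL, LOCAL TAME (helper59), part 2: Frobenius, tame generator and wild inertia of
`Γ = Gal(L/ℚ_p)`, `L/ℚ_p` finite Galois

* `psiZ`              : `ℤ_p → OL L`.
* `exists_frobenius`  : there is `φ ∈ Γ` with `φ a ≡ a ^ p` modulo `mL L` for all integers `a`.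
* `locTame`           : the structure of `Γ` (all clauses at the level of `Γ`, inertia being
                        `depth < 1`): a normal subgroup `W` of inertia, all of whose elements have
                        `p`-power order; `Γ = ⟨φ⟩ · I`; `I = ⟨τ₀⟩ · W`; `φ γ φ⁻¹ ≡ γ ^ p` modulo `W`
                        for `γ ∈ I`.
-/

noncomputable section

namespace Fermat.Agent.S56.FL.H59

open scoped NNReal
open Fermat.Agent.S56.FL Fermat.Agent.S56.FL.H15 Fermat.Agent.S56.H9 Module Polynomial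

variable {p : ℕ} [Fact p.Prime]

variable (L : IntermediateField ℚ_[p] (PadicAlgCl p))

/-- The structure map `ℤ_p → OL L`. -/
def psiZ : ℤ_[p] →+* OL L :=
  ((algebraMap ℚ_[p] L).comp PadicInt.Coe.ringHom).codRestrict (OL L) (fun c => by
    change ‖(((algebraMap ℚ_[p] L) (c : ℚ_[p]) : L) : PadicAlgCl p)‖ ≤ 1
    exact norm_phiZ_le_one c)

theorem coe_psiZ (c : ℤ_[p]) : (((psiZ L c : OL L) : L) : PadicAlgCl p) = phiZ p c := rfl

/-- The inclusion `OL L → K̄`. -/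
def inclOL : OL L →+* PadicAlgCl p := (algebraMap L (PadicAlgCl p)).comp (OL L).subtype

theorem inclOL_apply (a : OL L) : inclOL L a = ((a : L) : PadicAlgCl p) := rfl

theorem inclOL_injective : Function.Injective (inclOL L) := by
  intro a b h
  exact Subtype.ext (Subtype.ext h)

theorem coe_eval₂_psiZ (g : ℤ_[p][X]) (a : OL L) :
    (((g.eval₂ (psiZ L) a : OL L) : L) : PadicAlgCl p)
      = g.eval₂ (phiZ p) ((a : L) : PadicAlgCl p) := by
  have h := Polynomial.hom_eval₂ g (psiZ L) (inclOL L) a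
  rw [inclOL_apply] at h
  rw [h]
  rfl

theorem smul_psiZ (σ : L ≃ₐ[ℚ_[p]] L) (c : ℤ_[p]) : σ • psiZ L c = psiZ L c := by
  apply Subtype.ext
  rw [coe_smul_OL]
  exact σ.commutes _

theorem smul_eval₂_psiZ (σ : L ≃ₐ[ℚ_[p]] L) (g : ℤ_[p][X]) (a : OL L) :
    σ • g.eval₂ (psiZ L) a = g.eval₂ (psiZ L) (σ • a) := by
  have h := Polynomial.hom_eval₂ g (psiZ L)
    (MulSemiringAction.toRingHom (L ≃ₐ[ℚ_[p]] L) (OL L) σ) a
  have hc : (MulSemiringAction.toRingHom (L ≃ₐ[ℚ_[p]] L) (OL L) σ).comp (psiZ L) = psiZ L := by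
    ext c : 1
    exact smul_psiZ L σ c
  rw [hc] at h
  exact h

/-- `c ^ p ≡ c` modulo `p` in `ℤ_p`. -/
theorem padicInt_pow_sub_mem (c : ℤ_[p]) : ∃ d : ℤ_[p], c ^ p - c = (p : ℤ_[p]) * d := by
  have h1 : PadicInt.toZMod (c ^ p - c) = 0 := by
    rw [map_sub, map_pow, ZMod.pow_card, sub_self]
  have h2 : c ^ p - c ∈ RingHom.ker (PadicInt.toZMod (p := p)) := h1
  rw [PadicInt.ker_toZMod, PadicInt.maximalIdeal_eq_span_p, Ideal.mem_span_singleton] at h2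
  exact h2

theorem mk_psiZ_pow (c : ℤ_[p]) :
    (Ideal.Quotient.mk (mL L) (psiZ L c)) ^ p = Ideal.Quotient.mk (mL L) (psiZ L c) := by
  obtain ⟨d, hd⟩ := padicInt_pow_sub_mem c
  rw [← map_pow, ← sub_eq_zero, ← map_sub, ← map_pow, ← map_sub, hd, map_mul, map_mul,
    map_natCast, map_natCast, CharP.cast_eq_zero, zero_mul]

/-- Polynomial Frobenius modulo `mL L`. -/
theorem mk_eval₂_pow (g : ℤ_[p][X]) (a : OL L) :
    Ideal.Quotient.mk (mL L) (g.eval₂ (psiZ L) (a ^ p))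
      = (Ideal.Quotient.mk (mL L) (g.eval₂ (psiZ L) a)) ^ p := by
  have h1 := Polynomial.hom_eval₂ g (psiZ L) (Ideal.Quotient.mk (mL L)) (a ^ p)
  have h2 := Polynomial.hom_eval₂ g (psiZ L) (Ideal.Quotient.mk (mL L)) a
  have h3 := Polynomial.hom_eval₂ g ((Ideal.Quotient.mk (mL L)).comp (psiZ L))
    (frobenius (OL L ⧸ mL L) p) (Ideal.Quotient.mk (mL L) a)
  have hc : (frobenius (OL L ⧸ mL L) p).comp ((Ideal.Quotient.mk (mL L)).comp (psiZ L))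
      = (Ideal.Quotient.mk (mL L)).comp (psiZ L) := by
    ext c : 1
    exact mk_psiZ_pow L c
  rw [hc] at h3
  rw [h1, h2, map_pow]
  exact h3.symm

variable [FiniteDimensional ℚ_[p] L]

/-- **Frobenius**: there is an automorphism inducing `a ↦ a ^ p` on the residue field. -/
theorem exists_frobenius (hN : Normal ℚ_[p] L) :
    ∃ φ : L ≃ₐ[ℚ_[p]] L, ∀ a : OL L, φ • a - a ^ p ∈ mL L := by
  classical
  obtain ⟨x, π, q, h⟩ := exists_goodGen L
  obtain ⟨Pz, hP⟩ := exists_isMinZ hN h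
  set X₀ : OL L := ⟨x, h.1⟩ with hX₀
  have hroot : Pz.eval₂ (psiZ L) X₀ = 0 := by
    apply inclOL_injective L
    rw [inclOL_apply, coe_eval₂_psiZ, map_zero]
    exact hP.eval₂_self
  have hmem : Pz.eval₂ (psiZ L) (X₀ ^ p) ∈ mL L := by
    rw [← Ideal.Quotient.eq_zero_iff_mem, mk_eval₂_pow, hroot, map_zero,
      zero_pow (Fact.out : p.Prime).ne_zero]
  rw [mem_mL, coe_eval₂_psiZ, hP.norm_eval₂] at hmem
  -- one of the factors is `< 1`
  obtain ⟨φ, hφ⟩ : ∃ φ : L ≃ₐ[ℚ_[p]] L,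
      ‖(((X₀ ^ p : OL L) : L) : PadicAlgCl p) - ((φ x : L) : PadicAlgCl p)‖ < 1 := by
    by_contra hcon
    have hall : ∀ τ : L ≃ₐ[ℚ_[p]] L,
        1 ≤ ‖(((X₀ ^ p : OL L) : L) : PadicAlgCl p) - ((τ x : L) : PadicAlgCl p)‖ := by
      intro τ
      by_contra hlt
      exact hcon ⟨τ, not_le.mp hlt⟩
    have : (1 : ℝ) ≤ ∏ τ : L ≃ₐ[ℚ_[p]] L,
        ‖(((X₀ ^ p : OL L) : L) : PadicAlgCl p) - ((τ x : L) : PadicAlgCl p)‖ := by
      refine Finset.prod_induction _ (fun r : ℝ => 1 ≤ r)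
        (fun a b ha hb => one_le_mul_of_one_le_of_one_le ha hb) le_rfl fun τ _ => hall τ
    exact absurd hmem (not_lt.mpr this)
  have hφX : φ • X₀ - X₀ ^ p ∈ mL L := by
    rw [mem_mL]
    have : ((((φ • X₀ - X₀ ^ p : OL L)) : L) : PadicAlgCl p)
        = -((((X₀ ^ p : OL L) : L) : PadicAlgCl p) - ((φ x : L) : PadicAlgCl p)) := by
      push_cast
      rw [coe_smul_OL]
      ring
    rw [this, norm_neg]
    exact hφ
  refine ⟨φ, fun a => ?_⟩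
  obtain ⟨g, hg⟩ := exists_poly_eq h hP (a : L) a.2
  have ha : a = g.eval₂ (psiZ L) X₀ := by
    apply inclOL_injective L
    rw [inclOL_apply, inclOL_apply, coe_eval₂_psiZ]
    exact hg.symm
  rw [← Ideal.Quotient.eq, map_pow, ha, smul_eval₂_psiZ, ← mk_eval₂_pow]
  have h1 := Polynomial.hom_eval₂ g (psiZ L) (Ideal.Quotient.mk (mL L)) (φ • X₀)
  have h2 := Polynomial.hom_eval₂ g (psiZ L) (Ideal.Quotient.mk (mL L)) (X₀ ^ p)
  rw [h1, h2]
  congr 1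
  rw [Ideal.Quotient.eq]
  exact hφX

theorem frobenius_pow {φ : L ≃ₐ[ℚ_[p]] L} (hφ : ∀ a : OL L, φ • a - a ^ p ∈ mL L) (n : ℕ)
    (a : OL L) : (φ ^ n) • a - a ^ (p ^ n) ∈ mL L := by
  induction n generalizing a with
  | zero => simp
  | succ n ih =>
    have h1 := ih (φ • a)
    have h2 := hφ a
    rw [← Ideal.Quotient.eq] at h1 h2 ⊢
    rw [pow_succ, mul_smul, h1, map_pow, h2, map_pow, map_pow, ← pow_mul, mul_comm]
    rw [pow_succ]

/-- The Frobenius generates `Γ` modulo inertia. -/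
theorem exists_pow_frobenius_mul {φ : L ≃ₐ[ℚ_[p]] L} (hφ : ∀ a : OL L, φ • a - a ^ p ∈ mL L)
    (g : L ≃ₐ[ℚ_[p]] L) : ∃ n : ℕ, (φ ^ n)⁻¹ * g ∈ (mL L).inertia (L ≃ₐ[ℚ_[p]] L) := by
  letI : Field (OL L ⧸ mL L) := Ideal.Quotient.field (mL L)
  letI : Algebra (ZMod p) (OL L ⧸ mL L) := ZMod.algebra _ p
  obtain ⟨n, hn⟩ := (FiniteField.bijective_frobeniusAlgEquivOfAlgebraic_pow (ZMod p)
    (OL L ⧸ mL L)).2 (resAlgEquiv (mL L) p g (stab_mL L g))
  have hg : ∀ a : OL L, g • a - a ^ (p ^ (n : ℕ)) ∈ mL L := by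
    intro a
    rw [← Ideal.Quotient.eq, map_pow, ← resAlgEquiv_mk (mL L) p g (stab_mL L g) a, ← hn]
    simp only [AlgEquiv.coe_pow, FiniteField.coe_frobeniusAlgEquivOfAlgebraic_iterate,
      ZMod.card]
  refine ⟨n, fun a => ?_⟩
  change ((φ ^ (n : ℕ))⁻¹ * g) • a - a ∈ mL L
  -- apply `φ ^ n`
  have h1 := frobenius_pow L hφ n (((φ ^ (n : ℕ))⁻¹ * g) • a)
  rw [← mul_smul, mul_inv_cancel_left] at h1
  have h2 := hg a
  rw [← Ideal.Quotient.eq] at h1 h2 ⊢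
  have h3 : (Ideal.Quotient.mk (mL L) (((φ ^ (n : ℕ))⁻¹ * g) • a)) ^ (p ^ (n : ℕ))
      = (Ideal.Quotient.mk (mL L) a) ^ (p ^ (n : ℕ)) := by
    rw [← map_pow, ← h1, h2, map_pow]
  have h4 : iterateFrobenius (OL L ⧸ mL L) p (n : ℕ)
        (Ideal.Quotient.mk (mL L) (((φ ^ (n : ℕ))⁻¹ * g) • a))
      = iterateFrobenius (OL L ⧸ mL L) p (n : ℕ) (Ideal.Quotient.mk (mL L) a) := by
    rw [iterateFrobenius_def, iterateFrobenius_def]
    exact h3
  exact iterateFrobenius_inj (OL L ⧸ mL L) p (n : ℕ) h4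

/-- The wild inertia group is normal. -/
theorem wild_normal : (wild (mL L) (L ≃ₐ[ℚ_[p]] L)).Normal := by
  refine ⟨fun w hw g => ?_⟩
  rw [mem_wild] at hw ⊢
  refine ⟨conj_mem_inertia (stab_mL L g) hw.1, fun a ha => ?_⟩
  have h1 : g⁻¹ • a ∈ mL L := (stab_mL L g⁻¹ a).2 ha
  have h2 := hw.2 _ h1
  have h3 := smul_mem_pow_of_forall (mL L) (fun y hy => (stab_mL L g y).2 hy) 2 _ h2
  have e : g • (w • g⁻¹ • a - g⁻¹ • a) = (g * w * g⁻¹) • a - a := by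
    rw [smul_sub, smul_inv_smul, mul_smul, mul_smul]
  rw [← e]
  exact h3

/-- The elements of the wild inertia group have `p`-power order. -/
theorem wild_pow_eq_one {w : L ≃ₐ[ℚ_[p]] L} (hw : w ∈ wild (mL L) (L ≃ₐ[ℚ_[p]] L)) :
    ∃ N : ℕ, w ^ (p ^ N) = 1 := by
  have hp : p.Prime := Fact.out
  have hord : orderOf w ≠ 0 := (orderOf_pos w).ne'
  obtain ⟨e, n, hn, hen⟩ := Nat.exists_eq_pow_mul_and_not_dvd hord p hp.ne_one
  refine ⟨e, ?_⟩
  have hcop : n.Coprime p := (Nat.Coprime.symm ((Nat.Prime.coprime_iff_not_dvd hp).2 hn))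
  have hpow : ∀ y : OL L, ((w ^ p ^ e) ^ n) • y = y := by
    intro y
    rw [← pow_mul, ← hen, pow_orderOf_eq_one, one_smul]
  have htriv := smul_eq_of_mem_wild_of_coprime (mL L) (mL_isMaximal L).ne_top
    (natCast_mem_mL L) (pow_mem hw (p ^ e)) hcop hpow
  apply FaithfulSMul.eq_of_smul_eq_smul (α := OL L)
  intro y
  rw [htriv y, one_smul]

/-- **LOCAL TAME.** -/
theorem locTame (hN : Normal ℚ_[p] L) :
    ∃ (W : Subgroup (L ≃ₐ[ℚ_[p]] L)) (φ τ₀ : L ≃ₐ[ℚ_[p]] L),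
      W.Normal ∧ (∀ w ∈ W, depth p L w < 1) ∧ (∀ w ∈ W, ∃ N : ℕ, w ^ (p ^ N) = 1) ∧
      (∀ a : L, ‖a‖ ≤ 1 → ‖φ a - a ^ p‖ < 1) ∧
      depth p L τ₀ < 1 ∧
      (∀ γ : L ≃ₐ[ℚ_[p]] L, depth p L γ < 1 → ∃ n : ℕ, (τ₀ ^ n)⁻¹ * γ ∈ W) ∧
      (∀ γ : L ≃ₐ[ℚ_[p]] L, depth p L γ < 1 → (γ ^ p)⁻¹ * (φ * γ * φ⁻¹) ∈ W) ∧
      (∀ g : L ≃ₐ[ℚ_[p]] L, ∃ n : ℕ, depth p L ((φ ^ n)⁻¹ * g) < 1) := by
  obtain ⟨φ, hφ⟩ := exists_frobenius L hN
  obtain ⟨τ₀, hτ₀, hcyc⟩ := exists_generator_mod_wild (mL_ne_bot L)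
    ((mL L).inertia (L ≃ₐ[ℚ_[p]] L)) le_rfl
  refine ⟨wild (mL L) (L ≃ₐ[ℚ_[p]] L), φ, τ₀, wild_normal L, ?_, ?_, ?_, ?_, ?_, ?_, ?_⟩
  · intro w hw
    exact (mem_inertia_iff L w).1 (wild_le_inertia (mL L) hw)
  · intro w hw
    exact wild_pow_eq_one L hw
  · intro a ha
    have := hφ ⟨a, ha⟩
    rw [mem_mL] at this
    exact this
  · exact (mem_inertia_iff L τ₀).1 hτ₀
  · intro γ hγ
    exact hcyc γ ((mem_inertia_iff L γ).2 hγ)
  · intro γ hγ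
    exact conj_mem_wild (mL_ne_bot L) (stab_mL L φ) hφ ((mem_inertia_iff L γ).2 hγ)
  · intro g
    obtain ⟨n, hn⟩ := exists_pow_frobenius_mul L hφ g
    exact ⟨n, (mem_inertia_iff L _).1 hn⟩

end Fermat.Agent.S56.FL.H59

end
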