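import Fermat.Agent.S56.FL.LF.H15_Theta

set_option autoImplicit false
set_option linter.style.haveILetI false
set_option linter.unusedSectionVars false

/-!
# LOC-p-FL, package UNITS / CC2 (helper15): the twist estimates

`K`, `ϖ`, `r = ‖ϖ‖` as in `LevCtx`; `σ` in the inertia group, `θ = σ ϖ / ϖ`, `a ∈ K` with
`‖a - 1‖ ≤ r^i` (`i ≥ 1`), `m : ℕ`.  Then
`σ a - a^m ≡ (θ^i - m) (a - 1)` modulo elements of norm `< r^i`.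

* `LevCtx.norm_twist_lt`         : `‖θ^i - m‖ < 1` ⟹ `‖σ a - a^m‖ < r^i`.
* `LevCtx.norm_theta_sub_lt`     : `‖σ a - a^m‖ < r^i`, `‖a - 1‖ = r^i` ⟹ `‖θ^i - m‖ < 1`.
* `LevCtx.norm_theta_pow_pow_sub`: `θ_{σ^j} ≡ θ_σ^j`.
-/

noncomputable section

namespace Fermat.Agent.S56.FL.H15

open scoped NNReal
open Fermat.Agent.S56.FL Module

variable {p : ℕ} [Fact p.Prime]

/-- `‖(1+y)^m - 1 - m y‖ ≤ ‖y‖²`. -/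
theorem norm_one_add_pow_sub_le_sq {y : PadicAlgCl p} (hy : ‖y‖ ≤ 1) (m : ℕ) :
    ‖(1 + y) ^ m - 1 - (m : PadicAlgCl p) * y‖ ≤ ‖y‖ ^ 2 := by
  have h1y : ‖1 + y‖ ≤ 1 :=
    (IsUltrametricDist.norm_add_le_max _ _).trans (max_le (by simp) hy)
  induction m with
  | zero => simp
  | succ m ih =>
    have h1 : (1 + y) ^ (m + 1) - 1 - ((m + 1 : ℕ) : PadicAlgCl p) * y
        = (1 + y) * ((1 + y) ^ m - 1 - (m : PadicAlgCl p) * y) + (m : PadicAlgCl p) * y ^ 2 := by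
      push_cast; ring
    rw [h1]
    refine (IsUltrametricDist.norm_add_le_max _ _).trans (max_le ?_ ?_)
    · rw [norm_mul]
      calc ‖1 + y‖ * ‖(1 + y) ^ m - 1 - (m : PadicAlgCl p) * y‖
          ≤ 1 * ‖y‖ ^ 2 := mul_le_mul h1y ih (norm_nonneg _) zero_le_one
        _ = ‖y‖ ^ 2 := one_mul _
    · rw [norm_mul, norm_pow]
      calc ‖(m : PadicAlgCl p)‖ * ‖y‖ ^ 2 ≤ 1 * ‖y‖ ^ 2 :=
            mul_le_mul_of_nonneg_right (norm_natCast_le_one m) (by positivity)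
        _ = ‖y‖ ^ 2 := one_mul _

namespace LevCtx

variable {K : IntermediateField ℚ_[p] (PadicAlgCl p)} {ϖ ζ : PadicAlgCl p} {e₀ : ℕ}

/-- The three error terms of `σ a - a^m - (θ^i - m)(a - 1)`. -/
theorem twist_decomp (σ : Gp p) (a θ : PadicAlgCl p) (i m : ℕ) :
    σ a - a ^ m = (σ (a - 1) - θ ^ i * (a - 1)) + (θ ^ i - (m : PadicAlgCl p)) * (a - 1)
      - ((1 + (a - 1)) ^ m - 1 - (m : PadicAlgCl p) * (a - 1)) := by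
  rw [map_sub, map_one]
  ring

theorem norm_quad_lt (h : LevCtx K ϖ ζ e₀) {a : PadicAlgCl p} {i : ℕ} (hi : 0 < i)
    (ha : ‖a - 1‖ ≤ ‖ϖ‖ ^ i) (m : ℕ) :
    ‖(1 + (a - 1)) ^ m - 1 - (m : PadicAlgCl p) * (a - 1)‖ < ‖ϖ‖ ^ i := by
  have ha1 : ‖a - 1‖ ≤ 1 := ha.trans (h.pow_le_one' i)
  refine (norm_one_add_pow_sub_le_sq ha1 m).trans_lt ?_
  calc ‖a - 1‖ ^ 2 ≤ (‖ϖ‖ ^ i) ^ 2 := pow_le_pow_left₀ (norm_nonneg _) ha 2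
    _ = ‖ϖ‖ ^ i * ‖ϖ‖ ^ i := sq _
    _ < ‖ϖ‖ ^ i * 1 := mul_lt_mul_of_pos_left (h.pow_lt_one' hi) (h.pow_pos' i)
    _ = ‖ϖ‖ ^ i := mul_one _

/-- `‖σ a - a^m‖ ≤ r^i` always. -/
theorem norm_twist_le (h : LevCtx K ϖ ζ e₀) {a : PadicAlgCl p} {i : ℕ}
    (ha : ‖a - 1‖ ≤ ‖ϖ‖ ^ i) (σ : Gp p) (m : ℕ) : ‖σ a - a ^ m‖ ≤ ‖ϖ‖ ^ i := by
  have ha1 : ‖a - 1‖ ≤ 1 := ha.trans (h.pow_le_one' i)
  have h1 : σ a - a ^ m = σ (a - 1) - (a ^ m - 1) := by rw [map_sub, map_one]; ring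
  rw [h1]
  refine (norm_sub_le_max_algCl _ _).trans (max_le ?_ ?_)
  · rw [norm_gal]; exact ha
  · have ha' : ‖a‖ ≤ 1 := by
      have : a = (a - 1) + 1 := by ring
      rw [this]
      exact (IsUltrametricDist.norm_add_le_max _ _).trans (max_le ha1 (by simp))
    have := norm_pow_sub_pow_le_algCl ha' (norm_one (α := PadicAlgCl p)).le m
    rw [one_pow] at this
    exact this.trans ha

/-- If `θ^i ≡ m` then `σ a ≡ a^m` modulo `r^{i+1}`. -/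
theorem norm_twist_lt (h : LevCtx K ϖ ζ e₀) {a : PadicAlgCl p} (haK : a ∈ K) {i : ℕ}
    (hi : 0 < i) (ha : ‖a - 1‖ ≤ ‖ϖ‖ ^ i) {σ : Gp p} (hσ : σ ∈ inertiaP p) {m : ℕ}
    (hθ : ‖(σ ϖ / ϖ) ^ i - (m : PadicAlgCl p)‖ < 1) : ‖σ a - a ^ m‖ < ‖ϖ‖ ^ i := by
  rw [twist_decomp σ a (σ ϖ / ϖ) i m]
  refine (norm_sub_le_max_algCl _ _).trans_lt (max_lt
    ((IsUltrametricDist.norm_add_le_max _ _).trans_lt (max_lt ?_ ?_)) (h.norm_quad_lt hi ha m))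
  · exact h.norm_map_sub_theta hσ (K.sub_mem haK K.one_mem) ha
  · rw [norm_mul]
    calc ‖(σ ϖ / ϖ) ^ i - (m : PadicAlgCl p)‖ * ‖a - 1‖
        ≤ ‖(σ ϖ / ϖ) ^ i - (m : PadicAlgCl p)‖ * ‖ϖ‖ ^ i :=
          mul_le_mul_of_nonneg_left ha (norm_nonneg _)
      _ < 1 * ‖ϖ‖ ^ i := mul_lt_mul_of_pos_right hθ (h.pow_pos' i)
      _ = ‖ϖ‖ ^ i := one_mul _

/-- If `σ a ≡ a^m` modulo `r^{i+1}` and `‖a - 1‖ = r^i` then `θ^i ≡ m`. -/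
theorem norm_theta_sub_lt (h : LevCtx K ϖ ζ e₀) {a : PadicAlgCl p} (haK : a ∈ K) {i : ℕ}
    (hi : 0 < i) (ha : ‖a - 1‖ = ‖ϖ‖ ^ i) {σ : Gp p} (hσ : σ ∈ inertiaP p) {m : ℕ}
    (hlt : ‖σ a - a ^ m‖ < ‖ϖ‖ ^ i) : ‖(σ ϖ / ϖ) ^ i - (m : PadicAlgCl p)‖ < 1 := by
  have h1 : (σ ϖ / ϖ ^ 1 * 1) = σ ϖ / ϖ := by rw [pow_one, mul_one]
  have hdec := twist_decomp σ a (σ ϖ / ϖ) i m
  have h2 : ((σ ϖ / ϖ) ^ i - (m : PadicAlgCl p)) * (a - 1)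
      = (σ a - a ^ m) - (σ (a - 1) - (σ ϖ / ϖ) ^ i * (a - 1))
        + ((1 + (a - 1)) ^ m - 1 - (m : PadicAlgCl p) * (a - 1)) := by
    rw [hdec]; ring
  have h3 : ‖((σ ϖ / ϖ) ^ i - (m : PadicAlgCl p)) * (a - 1)‖ < ‖ϖ‖ ^ i := by
    rw [h2]
    refine (IsUltrametricDist.norm_add_le_max _ _).trans_lt (max_lt
      ((norm_sub_le_max_algCl _ _).trans_lt (max_lt hlt ?_)) (h.norm_quad_lt hi ha.le m))
    exact h.norm_map_sub_theta hσ (K.sub_mem haK K.one_mem) ha.le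
  rw [norm_mul, ha] at h3
  by_contra hcon
  have h4 : 1 ≤ ‖(σ ϖ / ϖ) ^ i - (m : PadicAlgCl p)‖ := not_lt.mp hcon
  have h5 : ‖ϖ‖ ^ i ≤ ‖(σ ϖ / ϖ) ^ i - (m : PadicAlgCl p)‖ * ‖ϖ‖ ^ i := by
    calc ‖ϖ‖ ^ i = 1 * ‖ϖ‖ ^ i := (one_mul _).symm
      _ ≤ _ := mul_le_mul_of_nonneg_right h4 (h.pow_pos' i).le
  exact absurd h3 (not_lt.mpr h5)

/-- `θ_{σ τ} ≡ θ_σ θ_τ` on inertia. -/
theorem norm_theta_mul_sub (h : LevCtx K ϖ ζ e₀) {σ : Gp p} (hσ : σ ∈ inertiaP p) (τ : Gp p) :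
    ‖(σ * τ) ϖ / ϖ - (σ ϖ / ϖ) * (τ ϖ / ϖ)‖ < 1 := by
  have hϖ0 : ϖ ≠ 0 := h.ϖ_ne_zero
  have h1 : (σ * τ) ϖ / ϖ - (σ ϖ / ϖ) * (τ ϖ / ϖ) = (σ (τ ϖ / ϖ) - τ ϖ / ϖ) * (σ ϖ / ϖ) := by
    rw [AlgEquiv.mul_apply, map_div₀]
    have hσϖ : σ ϖ ≠ 0 := fun h0 => hϖ0 ((map_eq_zero_iff σ σ.injective).mp h0)
    field_simp
  rw [h1, norm_mul, h.norm_theta σ, mul_one]
  exact hσ _ (h.norm_theta τ).le

/-- `θ_{σ^j} ≡ θ_σ^j` on inertia. -/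
theorem norm_theta_pow_pow_sub (h : LevCtx K ϖ ζ e₀) {σ : Gp p} (hσ : σ ∈ inertiaP p) (j : ℕ) :
    ‖(σ ^ j) ϖ / ϖ - (σ ϖ / ϖ) ^ j‖ < 1 := by
  induction j with
  | zero =>
    rw [pow_zero, pow_zero, AlgEquiv.one_apply, div_self h.ϖ_ne_zero, sub_self, norm_zero]
    exact zero_lt_one
  | succ j ih =>
    have h1 := h.norm_theta_mul_sub hσ (σ ^ j)
    have h2 : (σ ^ (j + 1)) ϖ / ϖ - (σ ϖ / ϖ) ^ (j + 1)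
        = ((σ * σ ^ j) ϖ / ϖ - (σ ϖ / ϖ) * ((σ ^ j) ϖ / ϖ))
          + (σ ϖ / ϖ) * ((σ ^ j) ϖ / ϖ - (σ ϖ / ϖ) ^ j) := by
      rw [pow_succ' σ j]; ring
    rw [h2]
    refine (IsUltrametricDist.norm_add_le_max _ _).trans_lt (max_lt h1 ?_)
    rw [norm_mul, h.norm_theta σ, one_mul]
    exact ih

end LevCtx

end Fermat.Agent.S56.FL.H15

end
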