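import Fermat.Agent.S56.FL.LF.H15_Lev
import Fermat.Agent.S56.FL.H38_CC0

set_option autoImplicit false
set_option linter.style.haveILetI false
set_option linter.unusedSectionVars false

/-!
# LOC-p-FL, package UNITS / CC2 (helper15): the tame character of a finite extension

`K ⊆ K̄` finite over `ℚ_p`, `ϖ` a uniformizer, `σ` in the inertia group of `K̄/ℚ_p`,
`θ_σ = σ ϖ / ϖ` (a unit).

* `LevCtx.norm_map_sub_theta` : `‖σ y - θ_σ^i y‖ < r^i` for `y ∈ K`, `‖y‖ ≤ r^i`.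
* `LevCtx.norm_theta_pow_sub` : `ω = θ^{e₀}`: if `σ ζ = ζ^n` then `‖θ_σ^{e₀} - n‖ < 1`.
-/

noncomputable section

namespace Fermat.Agent.S56.FL.H15

open scoped NNReal
open Fermat.Agent.S56.FL Module

variable {p : ℕ} [Fact p.Prime]

namespace LevCtx

variable {K : IntermediateField ℚ_[p] (PadicAlgCl p)} {ϖ ζ : PadicAlgCl p} {e₀ : ℕ}

theorem norm_theta (h : LevCtx K ϖ ζ e₀) (σ : Gp p) : ‖σ ϖ / ϖ‖ = 1 := by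
  rw [norm_div, norm_gal, div_self h.hϖ0.ne']

/-- The action of inertia on the graded pieces of `K`: `σ y ≡ θ_σ^i y` modulo `r^{i+1}`. -/
theorem norm_map_sub_theta (h : LevCtx K ϖ ζ e₀) {σ : Gp p} (hσ : σ ∈ inertiaP p)
    {y : PadicAlgCl p} (hyK : y ∈ K) {i : ℕ} (hy : ‖y‖ ≤ ‖ϖ‖ ^ i) :
    ‖σ y - (σ ϖ / ϖ) ^ i * y‖ < ‖ϖ‖ ^ i := by
  obtain ⟨u, -, hu1, hyu, -⟩ := h.exists_unit_mul hyK hy
  have hϖ0 : ϖ ≠ 0 := h.ϖ_ne_zero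
  have h1 : σ y - (σ ϖ / ϖ) ^ i * y = (σ u - u) * (σ ϖ) ^ i := by
    rw [hyu, map_mul, map_pow, div_pow]
    field_simp
  rw [h1, norm_mul, norm_pow, norm_gal]
  calc ‖σ u - u‖ * ‖ϖ‖ ^ i < 1 * ‖ϖ‖ ^ i :=
        mul_lt_mul_of_pos_right (hσ u hu1) (h.pow_pos' i)
    _ = ‖ϖ‖ ^ i := one_mul _

/-- `‖ζ^n - 1 - n (ζ - 1)‖ < ‖ζ - 1‖`. -/
theorem norm_zeta_pow_sub (h : LevCtx K ϖ ζ e₀) (n : ℕ) :
    ‖ζ ^ n - 1 - (n : PadicAlgCl p) * (ζ - 1)‖ < ‖ζ - 1‖ := by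
  have hζn : ‖ζ‖ = 1 := by
    have h1 : ‖ζ‖ ^ p = 1 := by rw [← norm_pow, h.hζp, norm_one]
    exact (pow_eq_one_iff_of_nonneg (norm_nonneg _) (Fact.out : p.Prime).ne_zero).mp h1
  have hz1 : ‖ζ - 1‖ < 1 := by
    rw [h.he₀]; exact h.pow_lt_one' h.e₀_pos
  have hz0 : 0 < ‖ζ - 1‖ := norm_pos_iff.mpr (sub_ne_zero.mpr h.hζ1)
  have hgeom : ζ ^ n - 1 = (ζ - 1) * ∑ j ∈ Finset.range n, ζ ^ j := by
    rw [mul_comm]; exact (geom_sum_mul ζ n).symm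
  have hsum : ∑ j ∈ Finset.range n, ζ ^ j - (n : PadicAlgCl p)
      = ∑ j ∈ Finset.range n, (ζ ^ j - 1) := by
    rw [Finset.sum_sub_distrib]; simp
  have hle : ‖∑ j ∈ Finset.range n, ζ ^ j - (n : PadicAlgCl p)‖ ≤ ‖ζ - 1‖ := by
    rw [hsum]
    refine IsUltrametricDist.norm_sum_le_of_forall_le_of_nonneg (norm_nonneg _) fun j _ => ?_
    have := norm_pow_sub_pow_le_algCl hζn.le (norm_one (α := PadicAlgCl p)).le j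
    rwa [one_pow] at this
  have h1 : ζ ^ n - 1 - (n : PadicAlgCl p) * (ζ - 1)
      = (ζ - 1) * (∑ j ∈ Finset.range n, ζ ^ j - (n : PadicAlgCl p)) := by
    rw [hgeom]; ring
  rw [h1, norm_mul]
  calc ‖ζ - 1‖ * ‖∑ j ∈ Finset.range n, ζ ^ j - (n : PadicAlgCl p)‖
      ≤ ‖ζ - 1‖ * ‖ζ - 1‖ := mul_le_mul_of_nonneg_left hle hz0.le
    _ < ‖ζ - 1‖ * 1 := mul_lt_mul_of_pos_left hz1 hz0
    _ = ‖ζ - 1‖ := mul_one _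

/-- **`ω = θ^{e₀}`** on inertia. -/
theorem norm_theta_pow_sub (h : LevCtx K ϖ ζ e₀) {σ : Gp p} (hσ : σ ∈ inertiaP p) {n : ℕ}
    (hn : σ ζ = ζ ^ n) : ‖(σ ϖ / ϖ) ^ e₀ - (n : PadicAlgCl p)‖ < 1 := by
  have hz0 : 0 < ‖ζ - 1‖ := norm_pos_iff.mpr (sub_ne_zero.mpr h.hζ1)
  have h1 := h.norm_map_sub_theta hσ (K.sub_mem h.hζK K.one_mem) h.he₀.le
  rw [← h.he₀] at h1
  have h2 := h.norm_zeta_pow_sub n
  have h3 : σ (ζ - 1) = ζ ^ n - 1 := by rw [map_sub, map_one, hn]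
  rw [h3] at h1
  have h4 : ((σ ϖ / ϖ) ^ e₀ - (n : PadicAlgCl p)) * (ζ - 1)
      = (ζ ^ n - 1 - (n : PadicAlgCl p) * (ζ - 1)) - (ζ ^ n - 1 - (σ ϖ / ϖ) ^ e₀ * (ζ - 1)) := by
    ring
  have h5 : ‖((σ ϖ / ϖ) ^ e₀ - (n : PadicAlgCl p)) * (ζ - 1)‖ < ‖ζ - 1‖ := by
    rw [h4]
    exact (norm_sub_le_max_algCl _ _).trans_lt (max_lt h2 h1)
  rw [norm_mul] at h5
  by_contra hcon
  have h6 : 1 ≤ ‖(σ ϖ / ϖ) ^ e₀ - (n : PadicAlgCl p)‖ := not_lt.mp hcon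
  have h7 : ‖ζ - 1‖ ≤ ‖(σ ϖ / ϖ) ^ e₀ - (n : PadicAlgCl p)‖ * ‖ζ - 1‖ := by
    calc ‖ζ - 1‖ = 1 * ‖ζ - 1‖ := (one_mul _).symm
      _ ≤ _ := mul_le_mul_of_nonneg_right h6 hz0.le
  exact absurd h5 (not_lt.mpr h7)

end LevCtx

end Fermat.Agent.S56.FL.H15

end
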