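import Fermat.Agent.S56.FL.LF.H15_Inertia
import Fermat.Agent.S56.FL.H59_KumNorm
import Fermat.Agent.S56.FL.H50_LiftB
import Fermat.Agent.S56.FL.H38_CC0a

set_option autoImplicit false
set_option linter.style.haveILetI false
set_option linter.unusedSectionVars false

/-!
# LOC-p-FL, package UNITS / CC2 (helper15): the unit filtration of a finite extension of `ℚ_p`

`K ⊆ K̄` finite over `ℚ_p` containing a primitive `p`-th root of unity `ζ`, `ϖ` a uniformizer,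
`r = ‖ϖ‖`, `‖ζ - 1‖ = r^{e₀}` (so `r^{(p-1) e₀} = p⁻¹`).  Everything is stated in `K̄` with
membership in `K`.

* `LevCtx K ϖ ζ e₀`    : the data.
* `LevCtx.lev1`        : `p ∤ i < p e₀`, `‖b^p - 1‖ ≤ r^i` ⟹ `‖b^p - 1‖ < r^i`.
* `LevCtx.lev3`        : `p ∣ i`, `0 < i < p e₀`, `‖a - 1‖ ≤ r^i` ⟹ `‖a b^p - 1‖ < r^i` for a `b ∈ Kˣ`.
* `LevCtx.hens`        : `‖a - 1‖ ≤ r^{p e₀ + 1}` ⟹ `a` is a `p`-th power in `K`.
-/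

noncomputable section

namespace Fermat.Agent.S56.FL.H15

open scoped NNReal
open Fermat.Agent.S56.FL Module

variable {p : ℕ} [Fact p.Prime]

/-- Uniformizer and primitive `p`-th root of unity of `K`. -/
structure LevCtx (K : IntermediateField ℚ_[p] (PadicAlgCl p)) (ϖ ζ : PadicAlgCl p) (e₀ : ℕ) :
    Prop where
  hϖK : ϖ ∈ K
  hϖ0 : 0 < ‖ϖ‖
  hϖ1 : ‖ϖ‖ < 1
  hmax : ∀ a ∈ K, ‖a‖ < 1 → ‖a‖ ≤ ‖ϖ‖
  hζK : ζ ∈ K
  hζ1 : ζ ≠ 1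
  hζp : ζ ^ p = 1
  he₀ : ‖ζ - 1‖ = ‖ϖ‖ ^ e₀

namespace LevCtx

variable {K : IntermediateField ℚ_[p] (PadicAlgCl p)} {ϖ ζ : PadicAlgCl p} {e₀ : ℕ}

theorem ϖ_ne_zero (h : LevCtx K ϖ ζ e₀) : ϖ ≠ 0 := norm_pos_iff.mp h.hϖ0

theorem norm_pow_e (h : LevCtx K ϖ ζ e₀) : ‖ϖ‖ ^ ((p - 1) * e₀) = (p : ℝ)⁻¹ := by
  rw [mul_comm, pow_mul, ← h.he₀]
  exact norm_zeta_sub_one h.hζ1 h.hζp

theorem norm_p (h : LevCtx K ϖ ζ e₀) : ‖(p : PadicAlgCl p)‖ = ‖ϖ‖ ^ ((p - 1) * e₀) := by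
  rw [h.norm_pow_e, norm_p_algCl]

theorem e₀_pos (h : LevCtx K ϖ ζ e₀) : 0 < e₀ := by
  rcases Nat.eq_zero_or_pos e₀ with h0 | h0
  · exfalso
    have h1 := h.norm_pow_e
    rw [h0, mul_zero, pow_zero] at h1
    have hp1 : (p : ℝ)⁻¹ < 1 := inv_lt_one_of_one_lt₀ one_lt_p_real
    rw [← h1] at hp1
    exact lt_irrefl _ hp1
  · exact h0

theorem pow_le_pow (h : LevCtx K ϖ ζ e₀) {i j : ℕ} (hij : i ≤ j) : ‖ϖ‖ ^ j ≤ ‖ϖ‖ ^ i :=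
  pow_le_pow_of_le_one h.hϖ0.le h.hϖ1.le hij

theorem pow_lt_pow (h : LevCtx K ϖ ζ e₀) {i j : ℕ} (hij : i < j) : ‖ϖ‖ ^ j < ‖ϖ‖ ^ i :=
  (pow_lt_pow_iff_right_of_lt_one₀ h.hϖ0 h.hϖ1).mpr hij

theorem le_of_pow_le (h : LevCtx K ϖ ζ e₀) {i j : ℕ} (hij : ‖ϖ‖ ^ j ≤ ‖ϖ‖ ^ i) : i ≤ j :=
  (pow_le_pow_iff_right_of_lt_one₀ h.hϖ0 h.hϖ1).mp hij

theorem lt_of_pow_lt (h : LevCtx K ϖ ζ e₀) {i j : ℕ} (hij : ‖ϖ‖ ^ j < ‖ϖ‖ ^ i) : i < j :=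
  (pow_lt_pow_iff_right_of_lt_one₀ h.hϖ0 h.hϖ1).mp hij

theorem pow_pos' (h : LevCtx K ϖ ζ e₀) (i : ℕ) : 0 < ‖ϖ‖ ^ i := pow_pos h.hϖ0 i

theorem pow_le_one' (h : LevCtx K ϖ ζ e₀) (i : ℕ) : ‖ϖ‖ ^ i ≤ 1 :=
  pow_le_one₀ h.hϖ0.le h.hϖ1.le

theorem pow_lt_one' (h : LevCtx K ϖ ζ e₀) {i : ℕ} (hi : 0 < i) : ‖ϖ‖ ^ i < 1 :=
  pow_lt_one₀ h.hϖ0.le h.hϖ1 hi.ne'

/-- The value group of `K` is generated by `‖ϖ‖`. -/
theorem exists_norm_eq (h : LevCtx K ϖ ζ e₀) {a : PadicAlgCl p} (haK : a ∈ K) (ha0 : a ≠ 0)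
    (ha1 : ‖a‖ ≤ 1) : ∃ j : ℕ, ‖a‖ = ‖ϖ‖ ^ j := by
  have hmax : ∀ b : K, ‖b‖ < 1 → ‖b‖ ≤ ‖(⟨ϖ, h.hϖK⟩ : K)‖ := fun b hb => h.hmax b b.2 hb
  have ha0' : (⟨a, haK⟩ : K) ≠ 0 := fun h0 => ha0 (congrArg Subtype.val h0)
  exact exists_norm_eq_pow K (π := ⟨ϖ, h.hϖK⟩) h.hϖ0 h.hϖ1 hmax ⟨a, haK⟩ ha0' ha1

/-- Discreteness of the valuation. -/
theorem le_pow_succ (h : LevCtx K ϖ ζ e₀) {a : PadicAlgCl p} (haK : a ∈ K) {i : ℕ}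
    (ha : ‖a‖ < ‖ϖ‖ ^ i) : ‖a‖ ≤ ‖ϖ‖ ^ (i + 1) := by
  rcases eq_or_ne a 0 with rfl | ha0
  · rw [norm_zero]; exact (h.pow_pos' _).le
  have ha1 : ‖a‖ ≤ 1 := ha.le.trans (h.pow_le_one' i)
  obtain ⟨j, hj⟩ := h.exists_norm_eq haK ha0 ha1
  rw [hj] at ha ⊢
  exact h.pow_le_pow (h.lt_of_pow_lt ha)

/-- An element of `K` of norm `‖ϖ‖^i` is a unit times `ϖ^i`. -/
theorem exists_unit_mul (h : LevCtx K ϖ ζ e₀) {a : PadicAlgCl p} (haK : a ∈ K) {i : ℕ}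
    (ha : ‖a‖ ≤ ‖ϖ‖ ^ i) : ∃ u ∈ K, ‖u‖ ≤ 1 ∧ a = u * ϖ ^ i ∧ (‖a‖ = ‖ϖ‖ ^ i → ‖u‖ = 1) := by
  have hϖi : ϖ ^ i ≠ 0 := pow_ne_zero _ h.ϖ_ne_zero
  refine ⟨a / ϖ ^ i, K.div_mem haK (pow_mem h.hϖK i), ?_, ?_, ?_⟩
  · rw [norm_div, norm_pow, div_le_one (h.pow_pos' i)]; exact ha
  · field_simp
  · intro h1
    rw [norm_div, norm_pow, h1, div_self (h.pow_pos' i).ne']

/-- `‖(1+y)^p - 1 - y^p‖ ≤ r^{(p-1)e₀} ‖y‖`. -/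
theorem norm_binom_le (h : LevCtx K ϖ ζ e₀) {y : PadicAlgCl p} (hy : ‖y‖ ≤ 1) :
    ‖(1 + y) ^ p - 1 - y ^ p‖ ≤ ‖ϖ‖ ^ ((p - 1) * e₀) * ‖y‖ := by
  rw [← h.norm_p]
  exact H59.norm_one_add_pow_sub_le (Fact.out : p.Prime) hy

/-- **LEV-1.** For `p ∤ i < p e₀`, a `p`-th power of `K` in `U^{(i)}` lies in `U^{(i+1)}`. -/
theorem lev1 (h : LevCtx K ϖ ζ e₀) {b : PadicAlgCl p} (hbK : b ∈ K) {i : ℕ} (hpi : ¬ p ∣ i)
    (hi : i < p * e₀) (hb : ‖b ^ p - 1‖ ≤ ‖ϖ‖ ^ i) : ‖b ^ p - 1‖ < ‖ϖ‖ ^ i := by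
  have hp : p.Prime := Fact.out
  have hp1 : 0 < p - 1 := by have := hp.two_le; omega
  have hi0 : 0 < i := by
    rcases Nat.eq_zero_or_pos i with h0 | h0
    · exact absurd (h0 ▸ dvd_zero p) hpi
    · exact h0
  have hb1 : ‖b ^ p - 1‖ < 1 := hb.trans_lt (h.pow_lt_one' hi0)
  have hy1 : ‖b - 1‖ < 1 := H38.norm_sub_one_lt_of_pow hb1
  set y : PadicAlgCl p := b - 1 with hy
  have hbx : b = 1 + y := by rw [hy]; ring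
  have hyK : y ∈ K := K.sub_mem hbK K.one_mem
  rcases eq_or_ne y 0 with hy0 | hy0
  · rw [hbx, hy0, add_zero, one_pow, sub_self, norm_zero]; exact h.pow_pos' i
  obtain ⟨j, hj⟩ := h.exists_norm_eq hyK hy0 hy1.le
  have hD := h.norm_binom_le hy1.le
  rw [hj, ← pow_add] at hD
  have hsplit : b ^ p - 1 = y ^ p + ((1 + y) ^ p - 1 - y ^ p) := by rw [hbx]; ring
  have hyp : ‖y ^ p‖ = ‖ϖ‖ ^ (p * j) := by rw [norm_pow, hj, ← pow_mul, mul_comm]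
  have hpj : p * j = (p - 1) * j + j := by
    have : p = (p - 1) + 1 := by omega
    nth_rewrite 1 [this]; ring
  have hpe : p * e₀ = (p - 1) * e₀ + e₀ := by
    have : p = (p - 1) + 1 := by omega
    nth_rewrite 1 [this]; ring
  by_cases hc : (p - 1) * j < (p - 1) * e₀
  · -- the `p`-th power dominates
    have hlt : ‖(1 + y) ^ p - 1 - y ^ p‖ < ‖y ^ p‖ := by
      rw [hyp]
      refine hD.trans_lt (h.pow_lt_pow ?_)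
      omega
    have heq : ‖b ^ p - 1‖ = ‖ϖ‖ ^ (p * j) := by
      rw [hsplit, norm_add_eq_left hlt, hyp]
    rw [heq] at hb ⊢
    have h1 : i ≤ p * j := h.le_of_pow_le hb
    have h2 : i ≠ p * j := fun h3 => hpi (h3 ▸ dvd_mul_right p j)
    exact h.pow_lt_pow (lt_of_le_of_ne h1 h2)
  · have hje : e₀ ≤ j := Nat.le_of_mul_le_mul_left (not_lt.mp hc) hp1
    have hle : ‖b ^ p - 1‖ ≤ ‖ϖ‖ ^ ((p - 1) * e₀ + j) := by
      rw [hsplit]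
      refine (IsUltrametricDist.norm_add_le_max _ _).trans (max_le ?_ hD)
      rw [hyp]
      exact h.pow_le_pow (by have := not_lt.mp hc; omega)
    exact hle.trans_lt (h.pow_lt_pow (by omega))

/-- `p`-th roots in the residue field of `K`. -/
theorem exists_pth_root [FiniteDimensional ℚ_[p] K] (u : PadicAlgCl p) (huK : u ∈ K)
    (hu : ‖u‖ ≤ 1) : ∃ v ∈ K, ‖v‖ ≤ 1 ∧ ‖v ^ p - u‖ < 1 := by
  obtain ⟨-, q, -, hq0, hq1, hpowq, -⟩ := exists_residue_generator K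
  have hpq : p ∣ q := by
    by_contra hn
    rw [norm_natCast_eq_one hn] at hq1
    exact lt_irrefl _ hq1
  obtain ⟨m, rfl⟩ := hpq
  refine ⟨u ^ m, pow_mem huK m, ?_, ?_⟩
  · rw [norm_pow]; exact pow_le_one₀ (norm_nonneg _) hu
  · have := hpowq ⟨u, huK⟩ hu
    rw [← pow_mul, mul_comm]
    exact this

/-- **LEV-3.** For `p ∣ i`, `0 < i < p e₀`, an element of `U^{(i)}` is congruent to a `p`-th power
modulo `U^{(i+1)}`. -/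
theorem lev3 [FiniteDimensional ℚ_[p] K] (h : LevCtx K ϖ ζ e₀) {a : PadicAlgCl p} (haK : a ∈ K)
    {i : ℕ} (hpi : p ∣ i) (hi0 : 0 < i) (hi : i < p * e₀) (ha : ‖a - 1‖ ≤ ‖ϖ‖ ^ i) :
    ∃ b ∈ K, b ≠ 0 ∧ ‖a * b ^ p - 1‖ < ‖ϖ‖ ^ i := by
  have hp : p.Prime := Fact.out
  have hp1 : 0 < p - 1 := by have := hp.two_le; omega
  obtain ⟨j, rfl⟩ := hpi
  have hj0 : 0 < j := Nat.pos_of_mul_pos_right hi0 |> fun h => by
    rcases Nat.eq_zero_or_pos j with h0 | h0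
    · rw [h0, mul_zero] at hi0; exact absurd hi0 (lt_irrefl _)
    · exact h0
  have hje : j < e₀ := Nat.lt_of_mul_lt_mul_left hi
  obtain ⟨u, huK, hu1, hau, -⟩ := h.exists_unit_mul (K.sub_mem haK K.one_mem) ha
  obtain ⟨v, hvK, hv1, hvu⟩ := exists_pth_root (-u) (K.neg_mem huK) (by rwa [norm_neg])
  set z : PadicAlgCl p := v * ϖ ^ j with hz
  have hzK : z ∈ K := K.mul_mem hvK (pow_mem h.hϖK j)
  have hzn : ‖z‖ ≤ ‖ϖ‖ ^ j := by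
    rw [hz, norm_mul, norm_pow]
    calc ‖v‖ * ‖ϖ‖ ^ j ≤ 1 * ‖ϖ‖ ^ j := mul_le_mul_of_nonneg_right hv1 (h.pow_pos' j).le
      _ = ‖ϖ‖ ^ j := one_mul _
  have hz1 : ‖z‖ < 1 := hzn.trans_lt (h.pow_lt_one' hj0)
  set b : PadicAlgCl p := 1 + z with hb
  have hbK : b ∈ K := K.add_mem K.one_mem hzK
  have hbn : ‖b‖ = 1 := by
    rw [hb, norm_add_eq_left (by rw [norm_one]; exact hz1), norm_one]
  have hb0 : b ≠ 0 := by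
    intro h0; rw [h0, norm_zero] at hbn; exact zero_ne_one hbn
  set D : PadicAlgCl p := (1 + z) ^ p - 1 - z ^ p with hD
  have hDn : ‖D‖ < ‖ϖ‖ ^ (p * j) := by
    have h1 := h.norm_binom_le hz1.le
    have h2 : ‖ϖ‖ ^ ((p - 1) * e₀) * ‖z‖ ≤ ‖ϖ‖ ^ ((p - 1) * e₀ + j) := by
      rw [pow_add]
      exact mul_le_mul_of_nonneg_left hzn (h.pow_pos' _).le
    refine (h1.trans h2).trans_lt (h.pow_lt_pow ?_)
    have h3 : (p - 1) * j < (p - 1) * e₀ := Nat.mul_lt_mul_of_pos_left hje hp1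
    have hpj : p * j = (p - 1) * j + j := by
      have : p = (p - 1) + 1 := by omega
      nth_rewrite 1 [this]; ring
    omega
  have hzp : z ^ p = v ^ p * ϖ ^ (p * j) := by rw [hz, mul_pow, ← pow_mul, mul_comm j p]
  have hbp : b ^ p - 1 = v ^ p * ϖ ^ (p * j) + D := by rw [hD, ← hzp]; ring
  have hbp1 : ‖b ^ p - 1‖ < 1 := by
    rw [hbp]
    refine (IsUltrametricDist.norm_add_le_max _ _).trans_lt (max_lt ?_ ?_)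
    · rw [norm_mul, norm_pow, norm_pow]
      calc ‖v‖ ^ p * ‖ϖ‖ ^ (p * j) ≤ 1 * ‖ϖ‖ ^ (p * j) :=
            mul_le_mul_of_nonneg_right (pow_le_one₀ (norm_nonneg _) hv1) (h.pow_pos' _).le
        _ = ‖ϖ‖ ^ (p * j) := one_mul _
        _ < 1 := h.pow_lt_one' hi0
    · exact hDn.trans (h.pow_lt_one' hi0)
  refine ⟨b, hbK, hb0, ?_⟩
  have hexp : a * b ^ p - 1 = (v ^ p - -u) * ϖ ^ (p * j) + D + (a - 1) * (b ^ p - 1) := by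
    have h1 : (a - 1) + (b ^ p - 1) = (v ^ p - -u) * ϖ ^ (p * j) + D := by
      rw [hau, hbp]; ring
    rw [← h1]; ring
  rw [hexp]
  refine (IsUltrametricDist.norm_add_le_max _ _).trans_lt (max_lt
    ((IsUltrametricDist.norm_add_le_max _ _).trans_lt (max_lt ?_ hDn)) ?_)
  · rw [norm_mul, norm_pow]
    calc ‖v ^ p - -u‖ * ‖ϖ‖ ^ (p * j) < 1 * ‖ϖ‖ ^ (p * j) :=
          mul_lt_mul_of_pos_right hvu (h.pow_pos' _)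
      _ = ‖ϖ‖ ^ (p * j) := one_mul _
  · rw [norm_mul]
    calc ‖a - 1‖ * ‖b ^ p - 1‖ ≤ ‖ϖ‖ ^ (p * j) * ‖b ^ p - 1‖ :=
          mul_le_mul_of_nonneg_right ha (norm_nonneg _)
      _ < ‖ϖ‖ ^ (p * j) * 1 := mul_lt_mul_of_pos_left hbp1 (h.pow_pos' _)
      _ = ‖ϖ‖ ^ (p * j) := mul_one _

/-- **HENS.** `U^{(p e₀ + 1)} ⊆ K^{×p}`. -/
theorem hens [FiniteDimensional ℚ_[p] K] (h : LevCtx K ϖ ζ e₀) {a : PadicAlgCl p} (haK : a ∈ K)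
    (ha : ‖a - 1‖ ≤ ‖ϖ‖ ^ (p * e₀ + 1)) : ∃ b ∈ K, b ^ p = a := by
  have hp : p.Prime := Fact.out
  have hp1 : 0 < p - 1 := by have := hp.two_le; omega
  set c : ℝ≥0 := ⟨‖ϖ‖ ^ (p * e₀ + 1), (h.pow_pos' _).le⟩ with hc
  have hcval : (c : ℝ) = ‖ϖ‖ ^ (p * e₀ + 1) := rfl
  have hcp : c ^ (p - 1) < ((p : ℝ≥0)⁻¹) ^ p := by
    rw [← NNReal.coe_lt_coe]
    push_cast
    rw [hcval, ← h.norm_pow_e, ← pow_mul, ← pow_mul]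
    refine h.pow_lt_pow ?_
    have hpe : p * e₀ = (p - 1) * e₀ + e₀ := by
      have : p = (p - 1) + 1 := by omega
      nth_rewrite 1 [this]; ring
    have h1 : (p * e₀ + 1) * (p - 1) = (p - 1) * e₀ * p + (p - 1) := by ring
    omega
  have hy1 : ‖a - 1‖ ≤ 1 := ha.trans (h.pow_le_one' _)
  set y : intRing p K := ⟨a - 1, K.sub_mem haK K.one_mem, hy1⟩ with hy
  have hyI : y ∈ Ideal.map (algebraMap (intRing p K) (intRing p K)) (ballIdeal p K c) := by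
    rw [Algebra.algebraMap_self, Ideal.map_id]
    exact ha
  obtain ⟨z, -, hz⟩ := H50.stmt_LIFT_b p K (intRing p K) c hcp y hyI
  refine ⟨((1 + z : intRing p K) : PadicAlgCl p), (1 + z : intRing p K).2.1, ?_⟩
  have h1 := congrArg (fun t : intRing p K => (t : PadicAlgCl p)) hz
  simp only [Subring.coe_pow, Subring.coe_add, Subring.coe_one] at h1
  rw [Subring.coe_add, Subring.coe_one, h1, hy]
  ring

end LevCtx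

end Fermat.Agent.S56.FL.H15

end
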